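/-
helper93, S39 at `p = 3` (needed by S59-LL, row 53): package BAD_3 = BAD_p at the TAME levels,
for every odd prime `p` (`p = 3` included).  Plan: `NOTES/plan/L_S39_BAD3.md` (v2).

Setting: `N = M p`, `p ∤ M`, `p` odd, `BAD.H91.TameAt M p` (i.e. `5 ≤ p`, or `p = 3` and `2 ∣ M`),
`A` a valuation ring of `ℚ̄` over `p`.  All definitions are those of the package BAD_p of S44
(`Fermat/Agent/BADP/`, `Fermat/Agent/S44/`); nothing there is modified.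

What changes for `p = 3`: the weight `w = 12` of the modular unit `U = Δ(z)/Δ(pz)` is divisible
by `p`.  The slope argument gives `e_s n_s ≡ C` modulo `p` at the nodes `s`
(`e_s ord_s (rd U) = 12`, `n_s = ord_s (rd f)`), and `p ∤ e_s` at the tame levels (THICK), so
`p n_s ≡ m ord_s (rd U)` modulo `p ^ 2`: the Eisenstein pairs are taken modulo `p ^ 2`
(`IsEisPair2`), and H-DROP is proved in that form.

Leaves (statements below):

* `Stmt_ModPlusT`     (MOD-T)   : the modular datum with cusps and unit, tame levels;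
* `Stmt_K0LiftT`      (K0-T)    : ARITH-0 for every modular datum;
* `Stmt_Thick`        (THICK)   : `e · ord_Q (rd U) = 12 → p ∤ e`;
* `Stmt_NodeVal2`     (NODE-VAL2), `Stmt_EisAbs2`, `Stmt_EisAbsTame2` (EIS-ABS2): abstract;
* `Stmt_EisModT`      (EIS-MOD-T): the modular assembly of (d);
* `Stmt_HDropT`       (H-DROP2) : Hecke on slopes modulo `p ^ 2`;
* `Stmt_RayModT`      (RAY-MOD-T): the modular assembly of (e).

Wiring: `BADP3/Wiring.lean`.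
-/
import Fermat.Agent.BADP.EisMod
import Fermat.Agent.BADP.H38_EisNodeDefs
attribute [local instance 10000] SubalgebraClass.toAlgebra
attribute [local instance 10000] HahnSeries.powerSeriesAlgebra

set_option autoImplicit false
set_option synthInstance.maxHeartbeats 400000
set_option maxHeartbeats 1000000

noncomputable section

open AlgebraicCurve ModularCurve

namespace Fermat.Agent.BADP3

open Fermat.Agent.BAD Fermat.Agent.S44 Fermat.Agent.S43.BadQ Fermat.Agent.S28.H73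
  Fermat.Agent.RED.H73 Fermat.Agent.BADP
open Fermat.Agent.RED.H17 Fermat.Agent.RED

/-! ## The modular datum at the tame levels -/

/-- **(MOD-T)**: the modular datum (Gauss valuation, `w_p`, Riemann, genus inequality, inertia)
exists at every tame level. -/
def Stmt_ModT : Prop :=
  ∀ (p M : ℕ), Fermat.Agent.BAD.H91.TameAt M p →
    ∀ (a b : ℤ) (hab : a * p + b * M = 1) (hp : p.Prime) [NeZero (M * p)],
    ∀ A : ValuationSubring (AlgebraicClosure ℚ), A.LiesOverPrime p →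
      ∃ S : SSD (AlgebraicClosure ℚ) ↥(FNbar (M * p)) (kV A) (RedF A (M * p)) (RedF A (M * p)),
        IsModDatum A p M a b hab hp S

/-- **(MOD-T+)**: the modular datum with the cusps and the modular unit exists at every tame
level. -/
def Stmt_ModPlusT : Prop :=
  ∀ (p : ℕ) [NeZero p] (M : ℕ), Fermat.Agent.BAD.H91.TameAt M p →
    ∀ (a b : ℤ) (hab : a * p + b * M = 1) (hp : p.Prime) [NeZero (M * p)],
    ∀ A : ValuationSubring (AlgebraicClosure ℚ), A.LiesOverPrime p →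
      ∃ S : SSD (AlgebraicClosure ℚ) ↥(FNbar (M * p)) (kV A) (RedF A (M * p)) (RedF A (M * p)),
        IsModDatumU A p M a b hab hp S

theorem stmt_ModT_of_plus (h : Stmt_ModPlusT) : Stmt_ModT := by
  intro p M ht a b hab hp _ A hA
  have : NeZero p := ⟨hp.ne_zero⟩
  obtain ⟨S, hS⟩ := h p M ht a b hab hp A hA
  exact ⟨S, hS.datum⟩

/-- **(K0-T)**: ARITH-0 for every modular datum (every prime `p`). -/
def Stmt_K0LiftT : Prop :=
  ∀ (p M : ℕ) (a b : ℤ) (hab : a * p + b * M = 1) (hp : p.Prime) [NeZero (M * p)],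
    ∀ A : ValuationSubring (AlgebraicClosure ℚ), A.LiesOverPrime p →
    ∀ S : SSD (AlgebraicClosure ℚ) ↥(FNbar (M * p)) (kV A) (RedF A (M * p)) (RedF A (M * p)),
      IsModDatum A p M a b hab hp S → IsK0Lift S (inertiaAuts A (M * p))

/-- **(THICK)**: at a tame level the thickness exponents are prime to `p`: if `Q` is not a
cusp (pole of `j~`) and `e · ord_Q (rd U) = 12` then `p ∤ e`.  (`p ≥ 5`: `e ∣ 12`.  `p = 3`, `2 ∣ M`: `rd U = j~ ^ 2` and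
`j~ x~ ^ 2 = (x~ + 256) ^ 3` for the Hauptmodul `x` of level `2`, so `3 ∣ ord_Q (j~)` at the
zeros of `j~`, `6 ∣ ord_Q (rd U)`, `e ∣ 2`.) -/
def Stmt_Thick : Prop :=
  ∀ (p : ℕ) [NeZero p], p.Prime → p ≠ 2 → ∀ (M : ℕ), ¬ p ∣ M →
    Fermat.Agent.BAD.H91.TameAt M p → ∀ [NeZero (M * p)],
    ∀ A : ValuationSubring (AlgebraicClosure ℚ), A.LiesOverPrime p →
    ∀ (Q : Place (kV A) (RedF A (M * p))) (e : ℤ),
      0 ≤ Q.ord (Fermat.Agent.BAD.H91.jRed A (M * p)) →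
      e * Q.ord (unitRed A (M * p) p (Dvd.intro_left M rfl)) = 12 → ¬ (p : ℤ) ∣ e

/-! ## The abstract assemblies, without `p ∤ w` -/

/-- **NODE-VAL2** = `BADP.H38.Stmt_NodeVal` with `0 < w` instead of `p ∤ w` (the proof of
helper38 uses `p ∤ w` only through `0 < w`). -/
def Stmt_NodeVal2 : Prop :=
  ∀ (K F k F₁ F₂ : Type) [Field K] [Field F] [Algebra K F] [Field k] [Field F₁]
    [Algebra k F₁] [Field F₂] [Algebra k F₂] [IsAlgClosed K] [IsAlgClosed k]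
    (S : SSD K F k F₁ F₂), FFHyp K F → FFHyp k F₁ → FFHyp k F₂ →
    ∀ (g g₁ g₂ : ℕ) (c c₁ c₂ : ℤ), IsGenus K F g c → IsGenus k F₁ g₁ c₁ → IsGenus k F₂ g₂ c₂ →
    g + 1 ≤ g₁ + g₂ + S.nodes.card →
    ∀ (p : ℕ), p.Prime → CharP k p → (p : K) ≠ 0 →
    ∀ (𝓘 𝓘' : Set (SemilinearAut K F)), (∀ τ ∈ 𝓘, S.IsInertial τ) → 𝓘' ⊆ 𝓘 →
      IsK0Lift S 𝓘 →
    ∀ (F0 : Subfield F), (∀ y : F, y ∈ F0 ↔ ∀ τ ∈ 𝓘, τ • y = y) →
      (∀ y ∈ F0, y ≠ 0 → ∃ n : ℤ, S.c₂.V.valuation y = S.c₂.V.valuation (p : F) ^ n) →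
    ∀ (U : F) (w : ℕ), S.c₁.IsGU U → (∀ τ ∈ 𝓘, τ • U = U) →
      (∀ P : Place K F, S.IsNodeP P → P.ord U = 0) →
      S.c₂.IsGU (U / algebraMap K F ((p : K) ^ w)) → 0 < w →
    ∀ (f : F), S.c₁.IsGU f → (∀ P : Place K F, (p : ℤ) ∣ P.ord f) → (∀ τ ∈ 𝓘', τ • f = f) →
      ∃ (e : Place k F₁ × Place k F₂ → ℕ) (G : Place k F₁ × Place k F₂ → F)
        (d : Place k F₁ × Place k F₂ → ℤ), ∀ s ∈ S.nodes,
        (e s : ℤ) * s.1.ord (S.c₁.rd U) = w ∧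
        (∀ τ ∈ 𝓘', τ • G s = G s) ∧ S.c₁.IsGU (G s) ∧
        (∀ P : Place K F, S.c₁.r P = some s.1 → (p : ℤ) * P.ord (G s) = P.ord f) ∧
        S.c₂.V.valuation f =
          S.c₂.V.valuation (p : F) ^ ((e s : ℤ) * (s.1.ord (S.c₁.rd f) - p * d s)) *
            S.c₂.V.valuation (G s) ^ p

/-- **EIS-ABS2** (wild case) = `BADP.Stmt_EisAbs` with the hypothesis `p ∤ w` replaced by
`0 < w`, `p ^ 2 ∤ w` and (THICK) at the nodes, and the conclusion taken modulo `p ^ 2`: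
`p n_s ≡ m a_s`. -/
def Stmt_EisAbs2 : Prop :=
  ∀ (K F k F₁ F₂ : Type) [Field K] [Field F] [Algebra K F] [Field k] [Field F₁]
    [Algebra k F₁] [Field F₂] [Algebra k F₂] [IsAlgClosed K] [IsAlgClosed k]
    (S : SSD K F k F₁ F₂), FFHyp K F → FFHyp k F₁ → FFHyp k F₂ →
    ∀ (g g₁ g₂ : ℕ) (c c₁ c₂ : ℤ), IsGenus K F g c → IsGenus k F₁ g₁ c₁ → IsGenus k F₂ g₂ c₂ →
    g + 1 ≤ g₁ + g₂ + S.nodes.card →
    ∀ (p : ℕ), p.Prime → p ≠ 2 → CharP k p → (p : K) ≠ 0 →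
    ∀ (𝓘 𝓘1 𝓘2 : Set (SemilinearAut K F)), (∀ τ ∈ 𝓘, S.IsInertial τ) → 𝓘1 ⊆ 𝓘 → 𝓘2 ⊆ 𝓘1 →
      IsK0Lift S 𝓘 →
    ∀ (F0 : Subfield F), (∀ y : F, y ∈ F0 ↔ ∀ τ ∈ 𝓘, τ • y = y) →
    ∀ (ζ ω : K) (σ : SemilinearAut K F), σ ∈ 𝓘1 →
      H97.KData S.c₁.V.valuation F0 p (algebraMap K F ζ) (algebraMap K F ω)
        ((SemilinearAut.toRingAut σ : F ≃+* F) : F →+* F) →
      H97.KData S.c₂.V.valuation F0 p (algebraMap K F ζ) (algebraMap K F ω)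
        ((SemilinearAut.toRingAut σ : F ≃+* F) : F →+* F) →
      (∀ y : F, (∀ τ ∈ 𝓘2, τ • y = y) →
        y ∈ IntermediateField.adjoin F0 ({algebraMap K F ζ, algebraMap K F ω} : Set F)) →
      (∀ y : F, (∀ τ ∈ 𝓘1, τ • y = y) →
        y ∈ IntermediateField.adjoin F0 ({algebraMap K F ζ} : Set F)) →
      (∀ τ ∈ 𝓘2, SemilinearAut.baseAut τ ζ = ζ ∧ SemilinearAut.baseAut τ ω = ω) →
      (∀ τ ∈ 𝓘1, SemilinearAut.baseAut τ ζ = ζ) →
      (∀ y : F, (∀ τ ∈ 𝓘2, τ • y = y) → ∀ τ ∈ 𝓘2, τ • (σ • y) = σ • y) →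
    -- the unit
    ∀ (U : F) (w : ℕ), S.c₁.IsGU U → (∀ τ ∈ 𝓘, τ • U = U) →
      (∀ P : Place K F, S.IsNodeP P → P.ord U = 0) →
      S.c₂.IsGU (U / algebraMap K F ((p : K) ^ w)) → 0 < w → ¬ p ^ 2 ∣ w →
      (∀ s ∈ S.nodes, ∀ e : ℤ, e * s.1.ord (S.c₁.rd U) = w → ¬ (p : ℤ) ∣ e) →
    -- the Kummer function
    ∀ (f : F), S.c₁.IsGU f → (∀ P : Place K F, (p : ℤ) ∣ P.ord f) → (∀ τ ∈ 𝓘2, τ • f = f) →
    -- the class of `σ x - x`
    ∀ (f₀ f₀' h₀ T : F) (a e : K), f₀ ∈ S.c₁.V → S.c₁.rd f₀ = 1 →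
      (∀ P : Place K F, (p : ℤ) ∣ P.ord f₀) → f₀' ∈ S.c₂.V → S.c₂.rd f₀' = 1 →
      f₀ = algebraMap K F a * f₀' * h₀ ^ p →
      (∀ τ ∈ 𝓘1, ∃ (e' : K) (T' : F), τ • f₀ = algebraMap K F e' * f₀ * T' ^ p) →
      σ • f = algebraMap K F e * f * f₀ * T ^ p →
      ∃ m : ℤ, ∀ s ∈ S.nodes,
        (p : ℤ) ^ 2 ∣ p * s.1.ord (S.c₁.rd f) - m * s.1.ord (S.c₁.rd U)

/-- **EIS-ABS-TAME2** = `BADP.Stmt_EisAbsTame` in the same form. -/
def Stmt_EisAbsTame2 : Prop :=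
  ∀ (K F k F₁ F₂ : Type) [Field K] [Field F] [Algebra K F] [Field k] [Field F₁]
    [Algebra k F₁] [Field F₂] [Algebra k F₂] [IsAlgClosed K] [IsAlgClosed k]
    (S : SSD K F k F₁ F₂), FFHyp K F → FFHyp k F₁ → FFHyp k F₂ →
    ∀ (g g₁ g₂ : ℕ) (c c₁ c₂ : ℤ), IsGenus K F g c → IsGenus k F₁ g₁ c₁ → IsGenus k F₂ g₂ c₂ →
    g + 1 ≤ g₁ + g₂ + S.nodes.card →
    ∀ (p : ℕ), p.Prime → p ≠ 2 → CharP k p → (p : K) ≠ 0 →
    ∀ (𝓘 𝓘1 : Set (SemilinearAut K F)), (∀ τ ∈ 𝓘, S.IsInertial τ) → 𝓘1 ⊆ 𝓘 →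
      IsK0Lift S 𝓘 →
    ∀ (F0 : Subfield F), (∀ y : F, y ∈ F0 ↔ ∀ τ ∈ 𝓘, τ • y = y) →
    ∀ (ζ : K), IsPrimitiveRoot ζ p →
      (∀ y ∈ F0, y ≠ 0 → ∃ n : ℤ, S.c₁.V.valuation y = S.c₁.V.valuation (p : F) ^ n) →
      (∀ y ∈ F0, y ≠ 0 → ∃ n : ℤ, S.c₂.V.valuation y = S.c₂.V.valuation (p : F) ^ n) →
      (∀ y : F, (∀ τ ∈ 𝓘1, τ • y = y) →
        y ∈ IntermediateField.adjoin F0 ({algebraMap K F ζ} : Set F)) →
      (∀ τ ∈ 𝓘1, SemilinearAut.baseAut τ ζ = ζ) →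
    ∀ (U : F) (w : ℕ), S.c₁.IsGU U → (∀ τ ∈ 𝓘, τ • U = U) →
      (∀ P : Place K F, S.IsNodeP P → P.ord U = 0) →
      S.c₂.IsGU (U / algebraMap K F ((p : K) ^ w)) → 0 < w → ¬ p ^ 2 ∣ w →
      (∀ s ∈ S.nodes, ∀ e : ℤ, e * s.1.ord (S.c₁.rd U) = w → ¬ (p : ℤ) ∣ e) →
    ∀ (f : F), S.c₁.IsGU f → (∀ P : Place K F, (p : ℤ) ∣ P.ord f) → (∀ τ ∈ 𝓘1, τ • f = f) →
      ∃ m : ℤ, ∀ s ∈ S.nodes,
        (p : ℤ) ^ 2 ∣ p * s.1.ord (S.c₁.rd f) - m * s.1.ord (S.c₁.rd U)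

/-! ## Clause (d): SLOPE -/

/-- **Eisenstein Kummer pair modulo `p ^ 2`.**  As `BADP.IsEisPair`, with the congruence at the
non-cuspidal places in the form `p · ord_Q (red f) ≡ c · ord_Q (red U)` modulo `p ^ 2`. -/
def IsEisPair2 (A : ValuationSubring (AlgebraicClosure ℚ)) (N p : ℕ) [NeZero N] [NeZero p]
    (hd : p ∣ N)
    (x : JZero N) (D : Divisor.degZero (K := AlgebraicClosure ℚ) (F := ↥(FNbar N)))
    (f : ↥(gaussV A N)) (c : ℤ) : Prop :=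
  x = Pic0.mk D ∧ gaussRes A N f ≠ 0 ∧
  (∀ P : Place (AlgebraicClosure ℚ) ↥(FNbar N),
    (p : ℤ) * (D : Divisor (AlgebraicClosure ℚ) ↥(FNbar N)) P = P.ord ((f : ↥(FNbar N)))) ∧
  ∀ Q : Place (kV A) ↥(redField A (FNbar N) (hasScale_laurentBaseChange A N)),
    (0 ≤ Q.ord (Fermat.Agent.BAD.H91.jRed A N) →
      (p : ℤ) ^ 2 ∣ p * Q.ord (gaussRes A N f) - c * Q.ord (unitRed A N p hd)) ∧
    (Q.ord (Fermat.Agent.BAD.H91.jRed A N) < 0 → (p : ℤ) ∣ Q.ord (gaussRes A N f))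

/-- An Eisenstein pair is an Eisenstein pair modulo `p ^ 2`. -/
theorem isEisPair2_of_isEisPair {A : ValuationSubring (AlgebraicClosure ℚ)} {N p : ℕ}
    [NeZero N] [NeZero p] {hd : p ∣ N} {x : JZero N}
    {D : Divisor.degZero (K := AlgebraicClosure ℚ) (F := ↥(FNbar N))}
    {f : ↥(gaussV A N)} {c : ℤ} (h : IsEisPair A N p hd x D f c) :
    IsEisPair2 A N p hd x D f (p * c) := by
  obtain ⟨h1, h2, h3, h4⟩ := h
  refine ⟨h1, h2, h3, fun Q => ⟨fun hQ => ?_, (h4 Q).2⟩⟩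
  obtain ⟨k, hk⟩ := (h4 Q).1 hQ
  refine ⟨k, ?_⟩
  linear_combination (p : ℤ) * hk

/-- **(d0)-(d5), (d7) at the tame levels**: a class with the peu ramifiée structure has an
Eisenstein Kummer pair modulo `p ^ 2`. -/
def Stmt_EisSlopeT : Prop :=
  ∀ (p : ℕ) [NeZero p], p.Prime → p ≠ 2 → ∀ (M : ℕ), ¬ p ∣ M →
    Fermat.Agent.BAD.H91.TameAt M p → ∀ [NeZero (M * p)],
    ∀ A : ValuationSubring (AlgebraicClosure ℚ), A.LiesOverPrime p →
    ∀ (x : (jzModule (M * p) p).J) (Y : Submodule (ZMod p) (jzModule (M * p) p).J) (u : ℤ),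
      (jzModule (M * p) p).IsCycOn A Y →
      (∀ σ ∈ A.inertiaSubgroupIn ℚ, (jzModule (M * p) p).gal σ x - x ∈ Y) →
      ¬ (p : ℤ) ∣ u → (jzModule (M * p) p).IsPeuFixed A u x →
      ∃ (D : Divisor.degZero (K := AlgebraicClosure ℚ) (F := ↥(FNbar (M * p))))
        (f : ↥(gaussV A (M * p))) (c : ℤ),
        IsEisPair2 A (M * p) p (Dvd.intro_left M rfl) (jzModule.pt (M * p) p x) D f c

/-- **(d6) = H-DROP2**: a non-Eisenstein eigenvector with an Eisenstein Kummer pair modulo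
`p ^ 2` lies in the finite part.  (Every prime `p`, every level `M p`, `p ∤ M`.)
Proof: as `BADP.H74.stmt_HDropP`, with `hdrop_abs` modulo `p ^ 2`: auxiliary function
`H = (β' g) ^ p · (α' U) ^ (-c)`. -/
def Stmt_HDropT : Prop :=
  ∀ (p : ℕ) [NeZero p], p.Prime → ∀ (M : ℕ), ¬ p ∣ M → ∀ [NeZero (M * p)],
    ∀ A : ValuationSubring (AlgebraicClosure ℚ), A.LiesOverPrime p →
    ∀ (S : Finset ℕ) (t : ℕ → ℤ) (x : (jzModule (M * p) p).J),
      (jzModule (M * p) p).IsEigen (M * p) S t x → NonEisSystem p (M * p) S t →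
      ∀ (D : Divisor.degZero (K := AlgebraicClosure ℚ) (F := ↥(FNbar (M * p))))
        (f : ↥(gaussV A (M * p))) (c : ℤ),
        IsEisPair2 A (M * p) p (Dvd.intro_left M rfl) (jzModule.pt (M * p) p x) D f c →
        Fin1 A (M * p) p (jzModule.pt (M * p) p x)

/-- **(EIS-MOD-T)**: the modular assembly of (d) at the tame levels.  Proof: as
`BADP.H18E.stmt_EisMod` (helper18), with the datum of (MOD-T+), the abstract statements
`Stmt_EisAbs2`, `Stmt_EisAbsTame2` (`w = 12`) and (THICK). -/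
def Stmt_EisModT : Prop :=
  Stmt_ModPlusT → Stmt_K0LiftT → Stmt_KumCmp → Stmt_KumW → Stmt_EisAbs2 → Stmt_EisAbsTame2 →
    Stmt_Thick → Stmt_EisSlopeT

/-- **(d) SLOPE at the tame levels.** -/
def Stmt_SlopeT : Prop :=
  ∀ (p : ℕ), p.Prime → p ≠ 2 → ∀ (M : ℕ), ¬ p ∣ M →
    Fermat.Agent.BAD.H91.TameAt M p → ∀ [NeZero (M * p)],
    ∀ A : ValuationSubring (AlgebraicClosure ℚ), A.LiesOverPrime p →
    ∀ (S : Finset ℕ) (t : ℕ → ℤ) (x : (jzModule (M * p) p).J)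
      (Y : Submodule (ZMod p) (jzModule (M * p) p).J) (u : ℤ),
      (jzModule (M * p) p).IsEigen (M * p) S t x → NonEisSystem p (M * p) S t →
      (jzModule (M * p) p).IsCycOn A Y →
      (∀ σ ∈ A.inertiaSubgroupIn ℚ, (jzModule (M * p) p).gal σ x - x ∈ Y) →
      ¬ (p : ℤ) ∣ u → (jzModule (M * p) p).IsPeuFixed A u x →
      Fin1 A (M * p) p (jzModule.pt (M * p) p x)

theorem stmt_SlopeT_of (h1 : Stmt_EisSlopeT) (h2 : Stmt_HDropT) : Stmt_SlopeT := by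
  intro p hp hp2 M hpM ht _ A hA S t x Y u hT hNE hY hsub hu hfix
  have : NeZero p := ⟨hp.ne_zero⟩
  obtain ⟨D, f, c, hpair⟩ := h1 p hp hp2 M hpM ht A hA x Y u hY hsub hu hfix
  exact h2 p hp M hpM A hA S t x hT hNE D f c hpair

/-! ## Clause (e): RAYNAUD -/

/-- **(RAY-K3), corrected, at the tame levels.** -/
def Stmt_RayK3xT : Prop :=
  ∀ (p : ℕ), p ≠ 2 → ∀ (M : ℕ), Fermat.Agent.BAD.H91.TameAt M p →
    ∀ (a b : ℤ) (hab : a * p + b * M = 1) (hp : p.Prime) [NeZero (M * p)],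
    ∀ A : ValuationSubring (AlgebraicClosure ℚ), A.LiesOverPrime p →
    ∀ (x : (jzModule (M * p) p).J) (u : ℤ) (ω : AlgebraicClosure ℚ),
      InK1 A (M * p) p (jzModule.pt (M * p) p x) →
      InK1 A (M * p) p (wS p M a b hab hp • jzModule.pt (M * p) p x) →
      ¬ (p : ℤ) ∣ u → IsGoodRoot p A u ω →
      (∀ σ ∈ A.inertiaSubgroupIn ℚ, σ ω = ω → (jzModule (M * p) p).gal σ x = x) →
      x = 0

/-- **(RAY-MOD-T)**: the modular assembly of (e) at the tame levels.  Proof: as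
`BADP.H15.stmt_RayMod` (helper15), with the datum of (MOD-T). -/
def Stmt_RayModT : Prop :=
  Stmt_ModT → Stmt_K0LiftT → Stmt_KumFix → Stmt_KumW → Stmt_RayK3xT

/-- **(e) RAYNAUD at the tame levels.** -/
def Stmt_RayT : Prop :=
  ∀ (p : ℕ), p ≠ 2 → ∀ (M : ℕ), Fermat.Agent.BAD.H91.TameAt M p →
    ∀ (a b : ℤ) (hab : a * p + b * M = 1) (hp : p.Prime) [NeZero (M * p)],
    ∀ A : ValuationSubring (AlgebraicClosure ℚ), A.LiesOverPrime p →
    ∀ (x : (jzModule (M * p) p).J) (Y : Submodule (ZMod p) (jzModule (M * p) p).J) (u : ℤ),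
      InK1 A (M * p) p (jzModule.pt (M * p) p x) →
      InK1 A (M * p) p (wS p M a b hab hp • jzModule.pt (M * p) p x) →
      (jzModule (M * p) p).IsCycOn A Y →
      (∀ σ ∈ A.inertiaSubgroupIn ℚ, (jzModule (M * p) p).gal σ x - x ∈ Y) →
      ¬ (p : ℤ) ∣ u → (jzModule (M * p) p).IsPeuFixed A u x →
      x ∈ Y

/-- **(e0)**: `Stmt_RayK3xT` and GOOD-ROOT give `Stmt_RayT`. -/
theorem stmt_RayT_of_rayK3xT (h : Stmt_RayK3xT) (hg : Stmt_GoodRoot) : Stmt_RayT := by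
  intro p hp2 M ht a b hab hp _ A hA x Y u hx hwx hY hsub hu hfix
  refine ray_of_rayK3x (jzModule (M * p) p) A hp (toric p M a b hab hp p A)
    (fun Y' hY' => isCycOn_le p M a b hab hp A hp2 hA Y' hY') ?_ ?_ x Y u
    ((mem_toric_iff p M a b hab hp p A x).2 ⟨hx, hwx⟩) hY hsub hu hfix
  · intro x' u' ω hx' hu' hω hgood hfix'
    have hx'' := (mem_toric_iff p M a b hab hp p A x').1 hx'
    exact h p hp2 M ht a b hab hp A hA x' u' ω hx''.1 hx''.2 hu' ⟨hω, hgood⟩ hfix'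
  · intro u' hu'
    obtain ⟨ω, hω, hgood⟩ := hg p hp hp2 A hA u' hu'
    exact ⟨ω, hω, hgood⟩

/-! ## The structure of `J₀(M p)[p]` at the tame levels -/

/-- **BAD_p at the tame levels** (`p` odd; `p = 3`: `2 ∣ M`). -/
def Stmt_BadP2T : Prop :=
  ∀ (p : ℕ), p.Prime → p ≠ 2 → ∀ (M : ℕ), ¬ p ∣ M →
    Fermat.Agent.BAD.H91.TameAt M p → ∀ [NeZero (M * p)],
    ∀ A : ValuationSubring (AlgebraicClosure ℚ), A.LiesOverPrime p →
      (jzModule (M * p) p).HasBadStructure (M * p) A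

end Fermat.Agent.BADP3
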