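/-
helper52, package BAD_3 (helper93, S39 at `p = 3`), leaf THICK: `stmt_Thick : BADP3.Stmt_Thick`.

(At the cusps the conclusion fails for `p = 3`: `Q = ∞`, `ord_Q (rd U) = -2`, `e = -6`; hence the
hypothesis `0 ≤ ord_Q (j~)` of `Stmt_Thick`.)

* `stmt_Thick` : **THICK**;
* `Stmt_ThickPos` : `0 < ord_Q (rd U)`, `e · ord_Q (rd U) = 12`  ⟹  `p ∤ e`;
* `stmt_ThickPos` : its proof.  `p ≥ 5`: `e ∣ 12`.  `p = 3`, `2 ∣ M`: `rd U = j~ ^ 2`
  (`BAD.H30.gaussRes_unitF_small`), so `e · ord_Q (j~) = 6`, and `3 ∣ ord_Q (j~)` by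
  `S38.P3.Stmt_NE` (`q = 3`, `r = 2`; helper57, helper8) at the level `M`
  (`S43.Old.H35.ft_mul_eq`);
* `thick_of_pos`, `thick_of_noncusp` : the forms with `0 < e`, resp. `0 ≤ ord_Q (j~)`.
-/
import Fermat.Agent.BADP3.Defs
import Fermat.Agent.S38.P3.H57_NE
import Fermat.Agent.S38.P3.H8_NE0
import Fermat.Agent.BAD.H30_UnitGaussSS
import Fermat.Agent.S43.Old.H35_LevelN
attribute [local instance 10000] SubalgebraClass.toAlgebra
attribute [local instance 10000] HahnSeries.powerSeriesAlgebra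

set_option autoImplicit false
set_option linter.style.haveILetI false
set_option linter.unusedSectionVars false
set_option synthInstance.maxHeartbeats 400000
set_option maxHeartbeats 1000000

noncomputable section

open AlgebraicCurve ModularCurve

namespace Fermat.Agent.BADP3.H52

open Fermat.Agent.BAD Fermat.Agent.S44 Fermat.Agent.S43.BadQ Fermat.Agent.S28.H73
  Fermat.Agent.RED.H73 Fermat.Agent.BADP
open Fermat.Agent.RED.H17 Fermat.Agent.RED Fermat.Agent.S43.Old.H35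

/-- **THICK**, corrected form: at the zeros of the reduction of the modular unit. -/
def Stmt_ThickPos : Prop :=
  ∀ (p : ℕ) [NeZero p], p.Prime → p ≠ 2 → ∀ (M : ℕ), ¬ p ∣ M →
    Fermat.Agent.BAD.H91.TameAt M p → ∀ [NeZero (M * p)],
    ∀ A : ValuationSubring (AlgebraicClosure ℚ), A.LiesOverPrime p →
    ∀ (Q : Place (kV A) (RedF A (M * p))) (e : ℤ),
      0 < Q.ord (unitRed A (M * p) p (Dvd.intro_left M rfl)) →
      e * Q.ord (unitRed A (M * p) p (Dvd.intro_left M rfl)) = 12 → ¬ (p : ℤ) ∣ e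

section Transport

variable {k : Type} [Field k]

/-- A property of the orders of a function does not depend on the name of the field. -/
theorem forall_ord_congr {E₁ E₂ : IntermediateField k (LaurentSeries k)} (hE : E₁ = E₂)
    (x₁ : ↥E₁) (x₂ : ↥E₂) (hx : (x₁ : LaurentSeries k) = (x₂ : LaurentSeries k))
    (P : ℤ → Prop) (h : ∀ Q : Place k ↥E₂, P (Q.ord x₂)) : ∀ Q : Place k ↥E₁, P (Q.ord x₁) := by
  subst hE
  have h1 : x₁ = x₂ := Subtype.ext hx
  subst h1
  exact h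

end Transport

section Arith

theorem not_dvd_of_mul_eq_twelve {p : ℕ} (hp : p.Prime) (h5 : 5 ≤ p) {e n : ℤ}
    (h : e * n = 12) : ¬ (p : ℤ) ∣ e := by
  intro hd
  have h12 : (p : ℤ) ∣ 12 := by
    rw [← h]
    exact Dvd.dvd.mul_right hd n
  have h12' : p ∣ 12 := by exact_mod_cast h12
  have hle : p ≤ 12 := Nat.le_of_dvd (by norm_num) h12'
  interval_cases p <;> revert hp h12' <;> decide

theorem not_three_dvd_of_thick {e n : ℤ} (h : e * (2 * n) = 12) (h3 : (3 : ℤ) ∣ n) :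
    ¬ (3 : ℤ) ∣ e := by
  rintro ⟨a, rfl⟩
  obtain ⟨b, rfl⟩ := h3
  obtain ⟨c, hc⟩ : ∃ c : ℤ, c = a * b := ⟨_, rfl⟩
  have h1 : 18 * c = 12 := by
    rw [hc]
    linear_combination h
  omega

end Arith

/-- The reduction of the modular unit is `j~ ^ 2` in characteristic `3`. -/
theorem unitRed_three (A : ValuationSubring (AlgebraicClosure ℚ)) (N : ℕ) [NeZero N]
    [NeZero 3] (hA : A.LiesOverPrime 3) (hd : 3 ∣ N) :
    unitRed A N 3 hd = Fermat.Agent.BAD.H91.jRed A N ^ 2 := by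
  haveI : Fact (Nat.Prime 3) := ⟨Nat.prime_three⟩
  apply Subtype.ext
  have h1 := Fermat.Agent.BAD.H30.gaussRes_unitF_small A N 3 hA hd (Or.inr rfl)
  have h2 : ((Fermat.Agent.BAD.H91.jRed A N : RedF A N) : LaurentSeries (kV A))
      = jqModC (kV A) := red_jF A N
  have h3 : ((Fermat.Agent.BAD.H91.jRed A N ^ 2 : RedF A N) : LaurentSeries (kV A))
      = ((Fermat.Agent.BAD.H91.jRed A N : RedF A N) : LaurentSeries (kV A)) ^ 2 := rfl
  rw [h3, h2]
  exact h1

/-- **THICK**, corrected form. -/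
theorem stmt_ThickPos : Stmt_ThickPos := by
  intro p _ hp hp2 M hpM ht _ A hA Q e hpos he
  rcases ht with h5 | ⟨rfl, h2M⟩ | ⟨rfl, -⟩
  · exact not_dvd_of_mul_eq_twelve hp h5 he
  · -- `p = 3`, `2 ∣ M`
    haveI : NeZero M := ⟨fun h => NeZero.ne (M * 3) (by rw [h, zero_mul])⟩
    have hU := unitRed_three A (M * 3) hA (Dvd.intro_left M rfl)
    rw [hU, ord_pow] at hpos he
    have hjpos : 0 < Q.ord (Fermat.Agent.BAD.H91.jRed A (M * 3)) := by
      push_cast at hpos
      omega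
    have hNE := Fermat.Agent.S38.P3.H57.stmt_NE_of Fermat.Agent.S38.P3.H8.stmt_NE0 3 M 2 hp hpM
      Nat.prime_two (by norm_num) h2M A hA
    have heq : Ft A (M * 3) = Ft A M := ft_mul_eq A 3 M hp hpM hA
    have h3 := forall_ord_congr heq (Fermat.Agent.BAD.H91.jRed A (M * 3))
      (Fermat.Agent.BAD.H91.jRed A M)
      ((red_jF A (M * 3)).trans (red_jF A M).symm)
      (fun n => 0 < n → (3 : ℤ) ∣ n) hNE Q hjpos
    have he' : e * (2 * Q.ord (Fermat.Agent.BAD.H91.jRed A (M * 3))) = 12 := by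
      rw [← he]
      push_cast
      ring
    exact_mod_cast not_three_dvd_of_thick he' h3
  · exact absurd rfl hp2

/-- THICK for positive thickness exponents. -/
theorem thick_of_pos (p : ℕ) [NeZero p] (hp : p.Prime) (hp2 : p ≠ 2) (M : ℕ) (hpM : ¬ p ∣ M)
    (ht : Fermat.Agent.BAD.H91.TameAt M p) [NeZero (M * p)]
    (A : ValuationSubring (AlgebraicClosure ℚ)) (hA : A.LiesOverPrime p)
    (Q : Place (kV A) (RedF A (M * p))) (e : ℤ) (he0 : 0 < e)
    (he : e * Q.ord (unitRed A (M * p) p (Dvd.intro_left M rfl)) = 12) : ¬ (p : ℤ) ∣ e := by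
  refine stmt_ThickPos p hp hp2 M hpM ht A hA Q e ?_ he
  by_contra hneg
  rw [not_lt] at hneg
  have := mul_nonpos_of_nonneg_of_nonpos he0.le hneg
  omega

/-- THICK at the non-cuspidal places. -/
theorem thick_of_noncusp (p : ℕ) [NeZero p] (hp : p.Prime) (hp2 : p ≠ 2) (M : ℕ)
    (hpM : ¬ p ∣ M) (ht : Fermat.Agent.BAD.H91.TameAt M p) [NeZero (M * p)]
    (A : ValuationSubring (AlgebraicClosure ℚ)) (hA : A.LiesOverPrime p)
    (Q : Place (kV A) (RedF A (M * p))) (e : ℤ)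
    (hj : 0 ≤ Q.ord (Fermat.Agent.BAD.H91.jRed A (M * p)))
    (he : e * Q.ord (unitRed A (M * p) p (Dvd.intro_left M rfl)) = 12) : ¬ (p : ℤ) ∣ e := by
  rcases ht with h5 | ⟨rfl, h2M⟩ | ⟨rfl, -⟩
  · exact not_dvd_of_mul_eq_twelve hp h5 he
  · refine stmt_ThickPos 3 hp hp2 M hpM (Or.inr (Or.inl ⟨rfl, h2M⟩)) A hA Q e ?_ he
    have hU := unitRed_three A (M * 3) hA (Dvd.intro_left M rfl)
    rw [hU, ord_pow] at he ⊢
    push_cast at he ⊢
    rcases hj.eq_or_lt with h0 | h0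
    · rw [← h0] at he
      omega
    · omega
  · exact absurd rfl hp2

/-- **THICK.** -/
theorem stmt_Thick : Stmt_Thick := by
  intro p _ hp hp2 M hpM ht _ A hA Q e hj he
  exact thick_of_noncusp p hp hp2 M hpM ht A hA Q e hj he

end Fermat.Agent.BADP3.H52
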