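import Fermat.Agent.BADP3.H57_RayMod
import Fermat.Agent.BADP.H21_CoordFinal

/-!
# BAD_3 (S39 at `p = 3`, for S59-LL), leaf RAY at the tame levels (helper57)

`rayK3x_tame` : the statement (RAY-K3x) at every TAME level `(M, p)` (`BAD.H91.TameAt M p`:
`5 ≤ p`, or `p = 3` and `2 ∣ M`, or `p = 2` and `3 ∣ M`), `p` odd, `p ∤ M`: the connected part
`G0 = K1 ∩ w K1` of `J₀(M p)[p]` has no non-zero element fixed by the stabiliser in the inertia
group of a good `p`-th root of an integer prime to `p`.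

From `rayMod_at` (`BADP3/H57_RayMod.lean`) with helper21's datum `BADP.H21.theS`
(`isModDatum_theS`) and helper11's ARITH-0 (`BADP.H11.isK0Lift_mod`).
-/

set_option autoImplicit false
set_option linter.style.haveILetI false
set_option linter.unusedSectionVars false
set_option synthInstance.maxHeartbeats 400000
set_option maxHeartbeats 1000000

noncomputable section

open AlgebraicCurve ModularCurve

namespace Fermat.Agent.BADP3.H57

open Fermat.Agent.BAD Fermat.Agent.S44 Fermat.Agent.S43.BadQ Fermat.Agent.S28.H73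
  Fermat.Agent.RED.H73 Fermat.Agent.S24 Fermat.Agent.BADP

/-- **(RAY-K3x) at the tame levels**, every odd prime `p`. -/
theorem rayK3x_tame
    (p : ℕ) (hp2 : p ≠ 2) (M : ℕ) (a b : ℤ) (hab : a * p + b * M = 1) (hp : p.Prime)
    [NeZero M] [NeZero (M * p)] [NeZero p]
    (A : ValuationSubring (AlgebraicClosure ℚ)) (hA : A.LiesOverPrime p)
    (hpM : ¬ p ∣ M) (ht : Fermat.Agent.BAD.H91.TameAt M p)
    (x : (jzModule (M * p) p).J) (u : ℤ) (ω : AlgebraicClosure ℚ)
    (hx : InK1 A (M * p) p (jzModule.pt (M * p) p x))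
    (hwx : InK1 A (M * p) p (wS p M a b hab hp • jzModule.pt (M * p) p x))
    (hu : ¬ (p : ℤ) ∣ u) (hgood : IsGoodRoot p A u ω)
    (hfix : ∀ σ ∈ A.inertiaSubgroupIn ℚ, σ ω = ω → (jzModule (M * p) p).gal σ x = x) :
    x = 0 :=
  rayMod_at p hp2 M a b hab hp A hA (Fermat.Agent.BADP.H21.theS A p M a b hab hp hA hpM ht)
    (Fermat.Agent.BADP.H21.isModDatum_theS A p M a b hab hp hA hpM ht)
    (Fermat.Agent.BADP.H11.isK0Lift_mod hA
      (Fermat.Agent.BADP.H21.isModDatum_theS A p M a b hab hp hA hpM ht) _ (fun _ hτ => hτ))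
    x u ω hx hwx hu hgood hfix

end Fermat.Agent.BADP3.H57
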