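import Fermat.Agent.BADP3.Defs
import Fermat.Agent.BADP3.H57_RayTame
import Fermat.Agent.S44.H66_GoodRoot

/-!
# BAD_3, leaf RAY-MOD-T (helper57)

* `stmt_RayModT : Stmt_RayModT` (`BADP3/Defs.lean`): the modular assembly of (e) at the tame
  levels, every odd prime `p`;
* `stmt_RayK3xT : Stmt_RayK3xT` : the same, unconditional (datum `BADP.H21.theS`, ARITH-0
  `BADP.H11.isK0Lift_mod`, KUM `BADP.H57`);
* `stmt_RayT : Stmt_RayT` : (e) RAYNAUD at the tame levels, unconditional (with GOOD-ROOT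
  `S44.H66.stmt_GoodRoot`).
-/

set_option autoImplicit false
set_option linter.style.haveILetI false
set_option linter.unusedSectionVars false
set_option synthInstance.maxHeartbeats 400000
set_option maxHeartbeats 1000000

noncomputable section

open AlgebraicCurve ModularCurve

namespace Fermat.Agent.BADP3.H57

open Fermat.Agent.BAD Fermat.Agent.S44 Fermat.Agent.S43.BadQ Fermat.Agent.S28.H73
  Fermat.Agent.RED.H73 Fermat.Agent.S24 Fermat.Agent.BADP Fermat.Agent.BADP3

/-- **(RAY-MOD-T)**. -/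
theorem stmt_RayModT : Stmt_RayModT := by
  intro hMod hK0 hKumFix hKumW p hp2 M ht a b hab hp _ A hA x u ω hx hwx hu hgood hfix
  obtain ⟨S, hS⟩ := hMod p M ht a b hab hp A hA
  exact rayMod_at_of hKumFix hKumW p hp2 M a b hab hp A hA S hS (hK0 p M a b hab hp A hA S hS)
    x u ω hx hwx hu hgood hfix

/-- `a p + b M = 1` gives `p ∤ M`. -/
theorem not_dvd_of_bezout {p M : ℕ} {a b : ℤ} (hab : a * p + b * M = 1) (hp : p.Prime) :
    ¬ p ∣ M := by
  intro hd
  have h1 : (p : ℤ) ∣ a * p + b * M :=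
    dvd_add (dvd_mul_left _ _) (Dvd.dvd.mul_left (Int.natCast_dvd_natCast.2 hd) _)
  rw [hab] at h1
  have h2 : p ∣ 1 := by exact_mod_cast h1
  exact hp.one_lt.ne' (Nat.dvd_one.1 h2)

/-- **(RAY-K3x) at the tame levels**, unconditional. -/
theorem stmt_RayK3xT : Stmt_RayK3xT := by
  intro p hp2 M ht a b hab hp hN A hA x u ω hx hwx hu hgood hfix
  haveI : NeZero M := ⟨fun h0 => NeZero.ne (M * p) (by rw [h0, zero_mul])⟩
  haveI : NeZero p := ⟨hp.ne_zero⟩
  exact rayK3x_tame p hp2 M a b hab hp A hA (not_dvd_of_bezout hab hp) ht x u ω hx hwx hu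
    hgood hfix

/-- **(e) RAYNAUD at the tame levels**, unconditional. -/
theorem stmt_RayT : Stmt_RayT :=
  stmt_RayT_of_rayK3xT stmt_RayK3xT Fermat.Agent.S44.H66.stmt_GoodRoot

end Fermat.Agent.BADP3.H57
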