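/-
helper66, S39 at `p = 3` (S59-LL), package BAD_3: the modular wiring EIS-MOD-T.
Plan: `NOTES/plan/L_S39_BAD3.md`; statement `BADP3.Stmt_EisModT` (BADP3/Defs.lean).

Copy of helper18's `BADP.H18E.stmt_EisMod` with the datum of (MOD-T+), the abstract statements
modulo `p ^ 2` (`Stmt_EisAbs2`, `Stmt_EisAbsTame2`, `w = 12`) and (THICK).
-/
import Fermat.Agent.BADP3.Defs
import Fermat.Agent.BADP.H18_EisMod
attribute [local instance 10000] SubalgebraClass.toAlgebra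
attribute [local instance 10000] HahnSeries.powerSeriesAlgebra

set_option autoImplicit false
set_option linter.style.haveILetI false
set_option linter.unusedSectionVars false
set_option synthInstance.maxHeartbeats 400000
set_option maxHeartbeats 1000000

noncomputable section

open AlgebraicCurve ModularCurve

namespace Fermat.Agent.BADP3.H66

open Fermat.Agent.BAD Fermat.Agent.S44 Fermat.Agent.S43.BadQ Fermat.Agent.S28.H73
  Fermat.Agent.RED.H73 Fermat.Agent.BADP Fermat.Agent.BADP.H18E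

/-! ## From the nodes to the Eisenstein pair modulo `p ^ 2` -/

section Final

variable (A : ValuationSubring (AlgebraicClosure ℚ)) (p M : ℕ) (a b : ℤ)
  (hab : a * p + b * M = 1) (hp : p.Prime) [NeZero (M * p)] [NeZero p]

include hab hp in
/-- The Eisenstein pair modulo `p ^ 2` from the congruences at the nodes. -/
theorem eisPair2_of_nodes
    (S : SSD (AlgebraicClosure ℚ) ↥(FNbar (M * p)) (kV A) (RedF A (M * p)) (RedF A (M * p)))
    (hS : IsModDatumU A p M a b hab hp S) (x : JZero (M * p))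
    (D : Divisor.degZero (K := AlgebraicClosure ℚ) (F := ↥(FNbar (M * p))))
    (f : ↥(FNbar (M * p))) (hfV : f ∈ gaussV A (M * p))
    (hfr : gaussRes A (M * p) ⟨f, hfV⟩ ≠ 0) (hx : x = Pic0.mk D)
    (hD : ∀ P : Place (AlgebraicClosure ℚ) ↥(FNbar (M * p)),
      (p : ℤ) * (D : Divisor (AlgebraicClosure ℚ) ↥(FNbar (M * p))) P = P.ord f)
    (m : ℤ)
    (hm : ∀ s ∈ S.nodes, (p : ℤ) ^ 2 ∣ p * s.1.ord (S.c₁.rd f) -
      m * s.1.ord (S.c₁.rd (Fermat.Agent.BAD.H30.unitF (M * p) p (Dvd.intro_left M rfl)))) :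
    IsEisPair2 A (M * p) p (Dvd.intro_left M rfl) x D ⟨f, hfV⟩ m := by
  set U := Fermat.Agent.BAD.H30.unitF (M * p) p (Dvd.intro_left M rfl) with hUdef
  have hUV : U ∈ gaussV A (M * p) :=
    Fermat.Agent.BAD.H30.unitF_mem_gaussV A (M * p) p (Dvd.intro_left M rfl)
  have hUr : gaussRes A (M * p) ⟨U, hUV⟩ ≠ 0 :=
    Fermat.Agent.BAD.H30.gaussRes_unitF_ne_zero A (M * p) p (Dvd.intro_left M rfl)
  have hfS : f ∈ S.c₁.V := (hS.datum.mem₁ f).2 hfV
  have hUS : U ∈ S.c₁.V := (hS.datum.mem₁ U).2 hUV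
  have hrdf : S.c₁.rd f = gaussRes A (M * p) ⟨f, hfV⟩ := by
    rw [S.c₁.rd_of_mem hfS]
    exact hS.datum.red₁ ⟨f, hfV⟩ hfS
  have hrdU : S.c₁.rd U = gaussRes A (M * p) ⟨U, hUV⟩ := by
    rw [S.c₁.rd_of_mem hUS]
    exact hS.datum.red₁ ⟨U, hUV⟩ hUS
  have hU0 : U ≠ 0 := by
    rintro h0
    apply hUr
    have : (⟨U, hUV⟩ : ↥(gaussV A (M * p))) = 0 := Subtype.ext h0
    rw [this, map_zero]
  -- the good places
  have hgood : ∀ Q ∈ S.c₁.good, (p : ℤ) ∣ Q.ord (gaussRes A (M * p) ⟨f, hfV⟩) := by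
    intro Q hQ
    have h1 := S.c₁.DI ⟨f, hfS⟩ (by rw [← S.c₁.rd_of_mem hfS, hrdf]; exact hfr)
      ((p : ℤ) • (D : Divisor (AlgebraicClosure ℚ) ↥(FNbar (M * p))))
      (fun P => by rw [Finsupp.smul_apply, smul_eq_mul]; exact hD P) Q hQ
    rw [← S.c₁.rd_of_mem hfS, hrdf, Finsupp.mapDomain_smul, Finsupp.smul_apply,
      smul_eq_mul] at h1
    exact ⟨_, h1.symm⟩
  have hgoodU : ∀ Q ∈ S.c₁.good, 0 ≤ Q.ord (Fermat.Agent.BAD.H91.jRed A (M * p)) →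
      Q.ord (gaussRes A (M * p) ⟨U, hUV⟩) = 0 := by
    intro Q hQ hj
    obtain ⟨DU, hDU, -⟩ := hS.datum.ff.principal.exists_divisor U hU0
    have h1 := S.c₁.DI ⟨U, hUS⟩ (by rw [← S.c₁.rd_of_mem hUS, hrdU]; exact hUr) DU hDU Q hQ
    rw [← S.c₁.rd_of_mem hUS, hrdU] at h1
    rw [← h1]
    refine mapDomain_eq_zero _ _ _ fun P hP => ?_
    rw [hDU]
    exact hS.unit_ord P Q hP hj
  refine ⟨hx, hfr, hD, fun Q => ?_⟩
  by_cases hQ : Q ∈ S.c₁.good
  · refine ⟨fun hj => ?_, fun _ => hgood Q hQ⟩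
    have h2 : Q.ord (unitRed A (M * p) p (Dvd.intro_left M rfl)) = 0 := hgoodU Q hQ hj
    rw [h2, mul_zero, sub_zero, pow_two]
    exact mul_dvd_mul_left _ (hgood Q hQ)
  · have hnode : ∃ s ∈ S.nodes, s.1 = Q := by
      by_contra hcon
      apply hQ
      refine (S.good₁ Q).2 fun s hs hsQ => hcon ⟨s, hs, hsQ⟩
    obtain ⟨s, hs, rfl⟩ := hnode
    refine ⟨fun _ => ?_, fun hj => absurd (hS.cusp_good _ hj) hQ⟩
    have h3 := hm s hs
    rw [hrdf, hrdU] at h3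
    exact h3

end Final

/-! ## The main theorem -/

section Main

theorem not_sq_dvd_twelve {p : ℕ} (hp : p.Prime) (hp2 : p ≠ 2) : ¬ p ^ 2 ∣ 12 := by
  intro h
  have h3 : 3 ≤ p := by
    have := hp.two_le
    omega
  have h9 : 9 ≤ p ^ 2 := by nlinarith
  have hle := Nat.le_of_dvd (by norm_num) h
  have h4 : p ≤ 3 := by nlinarith
  have hp3 : p = 3 := le_antisymm h4 h3
  subst hp3
  norm_num at h

/-- **EIS-MOD-T.** -/
theorem stmt_EisModT : Stmt_EisModT := by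
  intro hMod hK0 hCmp hW hAbs hTame hThick p _ hp hp2 M hpM ht _ A hA x Y u hY hsub hu hfix
  obtain ⟨a, b, hab⟩ : ∃ a b : ℤ, a * p + b * M = 1 := by
    have hcop : Nat.Coprime p M := (Nat.Prime.coprime_iff_not_dvd hp).2 hpM
    obtain ⟨a, b, h⟩ := Nat.isCoprime_iff_coprime.2 hcop
    exact ⟨a, b, h⟩
  haveI : IsAlgClosed (kV A) := isAlgClosed_kV A
  haveI hchar : CharP (kV A) p := Fermat.Agent.BAD.H82.charP_kV A hp hA
  have hp0 : (p : AlgebraicClosure ℚ) ≠ 0 := by exact_mod_cast hp.ne_zero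
  -- the datum
  obtain ⟨S, hS⟩ := hMod p M ht a b hab hp A hA
  have hK := hK0 p M a b hab hp A hA S hS.datum
  obtain ⟨g, g₁, c, c₁, hg, hg₁, hnum⟩ := hS.datum.genus
  have hT₁ := const_mem_c1 A p M a b hab hp S hS.datum
  have hT₂ := const_mem_c2 A p M a b hab hp S hS.datum
  have hV₁ : ∀ f, f ∈ gaussV A (M * p) → f ∈ S.c₁.V := fun f hf => (hS.datum.mem₁ f).2 hf
  have hV₂ : ∀ f, f ∈ Fermat.Agent.BAD.H88.V2 A p M a b hab hp → f ∈ S.c₂.V :=
    fun f hf => (hS.datum.mem₂ f).2 hf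
  have hA1₁ := H15.stmt_A1 (M * p) A S.c₁ hV₁
  have hA1₂ := H15.stmt_A1_two A p M a b hab hp S.c₂ hV₂
  have hinert : ∀ τ ∈ inertiaAuts A (M * p), S.IsInertial τ := by
    rintro τ ⟨σ, hσ, rfl⟩
    exact hS.datum.inertial σ hσ
  -- the unit
  set U := Fermat.Agent.BAD.H30.unitF (M * p) p (Dvd.intro_left M rfl) with hUdef
  have hUV : U ∈ gaussV A (M * p) :=
    Fermat.Agent.BAD.H30.unitF_mem_gaussV A (M * p) p (Dvd.intro_left M rfl)
  have hUr : gaussRes A (M * p) ⟨U, hUV⟩ ≠ 0 :=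
    Fermat.Agent.BAD.H30.gaussRes_unitF_ne_zero A (M * p) p (Dvd.intro_left M rfl)
  have hrdU : S.c₁.rd U = gaussRes A (M * p) ⟨U, hUV⟩ := by
    rw [S.c₁.rd_of_mem (hV₁ U hUV)]
    exact hS.datum.red₁ ⟨U, hUV⟩ (hV₁ U hUV)
  have hUGU : S.c₁.IsGU U := by
    refine ⟨hV₁ U hUV, ?_⟩
    rw [hrdU]
    exact hUr
  have hUfix : ∀ τ ∈ inertiaAuts A (M * p), τ • U = U := by
    rintro τ ⟨σ, hσ, rfl⟩
    exact hS.unit_fixed σ hσ
  have hUnode : ∀ P : Place (AlgebraicClosure ℚ) ↥(FNbar (M * p)), S.IsNodeP P →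
      P.ord U = 0 := by
    rintro P ⟨s, hs, hr⟩
    refine hS.unit_ord P s.1 hr ?_
    by_contra hcon
    rw [not_le] at hcon
    exact (S.good₁ s.1).1 (hS.cusp_good s.1 hcon) s hs rfl
  have h12 : (0 : ℕ) < 12 := by norm_num
  have h144 : ¬ p ^ 2 ∣ 12 := not_sq_dvd_twelve hp hp2
  have hthick : ∀ s ∈ S.nodes, ∀ e : ℤ, e * s.1.ord (S.c₁.rd U) = ((12 : ℕ) : ℤ) →
      ¬ (p : ℤ) ∣ e := by
    intro s hs e he
    rw [hrdU] at he
    have hnc : 0 ≤ s.1.ord (Fermat.Agent.BAD.H91.jRed A (M * p)) := by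
      by_contra hcon
      rw [not_le] at hcon
      exact (S.good₁ s.1).1 (hS.cusp_good s.1 hcon) s hs rfl
    exact hThick p hp hp2 M hpM ht A hA s.1 e hnc (by exact_mod_cast he)
  -- the torsion point
  have htors : p • jzModule.pt (M * p) p x = 0 := by
    have h := jzModule.pt_torsion (M * p) p x
    rwa [natCast_zsmul] at h
  have hu0 : (u : AlgebraicClosure ℚ) ≠ 0 := by
    intro h
    apply hu
    have h1 : u = 0 := by exact_mod_cast h
    rw [h1]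
    exact dvd_zero _
  -- a primitive root of unity
  obtain ⟨ζ, hζ⟩ : ∃ ζ : AlgebraicClosure ℚ, IsPrimitiveRoot ζ p := by
    haveI : NeZero (p : AlgebraicClosure ℚ) := ⟨hp0⟩
    exact HasEnoughRootsOfUnity.exists_primitiveRoot (AlgebraicClosure ℚ) p
  -- the descent for `I₁`
  have hdesc1 : ∀ y : ↥(FNbar (M * p)), (∀ τ ∈ stabAuts A (M * p) {ζ}, τ • y = y) →
      y ∈ IntermediateField.adjoin (H15.fixF (M * p) (H15.inertiaSet A))
        ({algebraMap (AlgebraicClosure ℚ) ↥(FNbar (M * p)) ζ} : Set ↥(FNbar (M * p))) := by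
    intro y hy
    refine H15.mem_adjoin_singleton_of_fixed (M * p) A hp hA ζ fun σ hσ hσζ => ?_
    exact hy _ ⟨σ, hσ, fun t ht => by rw [Set.mem_singleton_iff.1 ht]; exact hσζ, rfl⟩
  have hbase1 : ∀ τ ∈ stabAuts A (M * p) {ζ}, SemilinearAut.baseAut τ ζ = ζ := by
    rintro τ ⟨σ, -, hT, rfl⟩
    exact hT ζ rfl
  -- the final step
  have hfinal : ∀ (D : Divisor.degZero (K := AlgebraicClosure ℚ) (F := ↥(FNbar (M * p))))
      (f : ↥(FNbar (M * p))) (hfV : f ∈ gaussV A (M * p)),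
      gaussRes A (M * p) ⟨f, hfV⟩ ≠ 0 → jzModule.pt (M * p) p x = Pic0.mk D →
      (∀ P : Place (AlgebraicClosure ℚ) ↥(FNbar (M * p)),
        (p : ℤ) * (D : Divisor (AlgebraicClosure ℚ) ↥(FNbar (M * p))) P = P.ord f) →
      (∃ m : ℤ, ∀ s ∈ S.nodes,
        (p : ℤ) ^ 2 ∣ p * s.1.ord (S.c₁.rd f) - m * s.1.ord (S.c₁.rd U)) →
      ∃ (D : Divisor.degZero (K := AlgebraicClosure ℚ) (F := ↥(FNbar (M * p))))
        (f : ↥(gaussV A (M * p))) (c : ℤ),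
        IsEisPair2 A (M * p) p (Dvd.intro_left M rfl) (jzModule.pt (M * p) p x) D f c := by
    rintro D f hfV hfr hxD hDf ⟨m, hm⟩
    exact ⟨D, ⟨f, hfV⟩, m, eisPair2_of_nodes A p M a b hab hp S hS _ D f hfV hfr hxD hDf m hm⟩
  have hGU_of : ∀ (f : ↥(FNbar (M * p))) (hfV : f ∈ gaussV A (M * p)),
      gaussRes A (M * p) ⟨f, hfV⟩ ≠ 0 → S.c₁.IsGU f := by
    intro f hfV hfr
    refine ⟨hV₁ f hfV, ?_⟩
    rw [S.c₁.rd_of_mem (hV₁ f hfV), hS.datum.red₁ ⟨f, hfV⟩ (hV₁ f hfV)]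
    exact hfr
  -- the dichotomy
  rcases H97.karith_dichotomy hp hp2 hA u hu hζ with ⟨z, hzK, hz⟩ | ⟨t, ω, σ, htK, -, htω, hσ, hKD⟩
  · -- the tame case
    have hx1 : ∀ τ ∈ stabSub A {ζ}, τ • jzModule.pt (M * p) p x = jzModule.pt (M * p) p x := by
      rintro τ ⟨hτ, hτT⟩
      have hτζ : τ ζ = ζ := hτT ζ rfl
      have hτz : τ z = z := H97.mem_K0.1 hzK τ hτ
      have h1 := hfix τ hτ (fix_roots hp.pos hζ hτζ)
        (fix_pth_roots hp.pos hζ hτζ hu0 hz hτz)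
      rw [← jzModule.pt_gal, h1]
    obtain ⟨D, f, hfV, hf0, hxD, hfr, hDf, hffix⟩ :=
      exists_pair_of_fixed (M * p) A (stabSub A {ζ}) p _ htors hx1
    refine hfinal D f hfV hfr hxD hDf ?_
    refine hTame (AlgebraicClosure ℚ) ↥(FNbar (M * p)) (kV A) (RedF A (M * p)) (RedF A (M * p)) S
      hS.datum.ff hS.datum.ff₁ hS.datum.ff₁ g g₁ g₁ c c₁ c₁ hg hg₁ hg₁ hnum p hp hp2 hchar hp0
      (inertiaAuts A (M * p)) (stabAuts A (M * p) {ζ}) hinert
      (stabAuts_subset_inertiaAuts A (M * p) {ζ}) hK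
      (H15.fixF (M * p) (H15.inertiaSet A)) (mem_F0_iff A p M) ζ hζ
      (val_F0 A p M a b hab hp hA S.c₁ hT₁ hA1₁) (val_F0 A p M a b hab hp hA S.c₂ hT₂ hA1₂)
      hdesc1 hbase1 U 12 hUGU hUfix hUnode hS.unit_two h12 h144 hthick f (hGU_of f hfV hfr)
      (fun P => ⟨_, (hDf P).symm⟩) ?_
    rintro τ ⟨σ, hσ, hT, rfl⟩
    exact hffix σ ⟨hσ, hT⟩
  · -- the wild case
    have hσζ : σ ζ = ζ := hKD.σζ
    have hσω : σ ω = ζ * ω := hKD.σω
    have hx2 : ∀ τ ∈ stabSub A {ζ, ω},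
        τ • jzModule.pt (M * p) p x = jzModule.pt (M * p) p x := by
      rintro τ ⟨hτ, hτT⟩
      have hτζ : τ ζ = ζ := hτT ζ (Set.mem_insert _ _)
      have hτω : τ ω = ω := hτT ω (Set.mem_insert_of_mem _ rfl)
      have hτt : τ t = t := H97.mem_K0.1 htK τ hτ
      have h1 := hfix τ hτ (fix_roots hp.pos hζ hτζ)
        (fix_pth_roots hp.pos hζ hτζ hu0 htω (by rw [map_mul, hτt, hτω]))
      rw [← jzModule.pt_gal, h1]
    obtain ⟨D, f, hfV, hf0, hxD, hfr, hDf, hffix⟩ :=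
      exists_pair_of_fixed (M * p) A (stabSub A {ζ, ω}) p _ htors hx2
    refine hfinal D f hfV hfr hxD hDf ?_
    -- the class `y₀ = σ x - x`
    have hy₀Y : (jzModule (M * p) p).gal σ x - x ∈ Y := hsub σ hσ
    have hY0 := isCycOn_le p M a b hab hp A hp2 hA Y hY hy₀Y
    obtain ⟨hK1, hK1w⟩ := (mem_toric_iff p M a b hab hp p A _).1 hY0
    obtain ⟨D₀, f₀, f₀', h₀, c₀, hf₀V, hf₀'V, hy₀D, hD₀, hr₀, hr₀', hfact⟩ :=
      hW p M a b hab hp p A _ hK1 hK1w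
    have hf₀0 : f₀ ≠ 0 := by
      rintro rfl
      have : (⟨0, hf₀V⟩ : ↥(gaussV A (M * p))) = 0 := rfl
      rw [this, map_zero] at hr₀
      exact zero_ne_one hr₀
    -- the class of `y₀` is fixed by `I₁`
    have hcyc : ∀ τ ∈ A.inertiaSubgroupIn ℚ, τ ζ = ζ →
        τ • (Pic0.mk D₀ : JZero (M * p)) = Pic0.mk D₀ := by
      intro τ hτ hτζ
      have h1 := hY τ hτ 1 (fun ζ' hζ' => by rw [pow_one]; exact fix_roots hp.pos hζ hτζ ζ' hζ')
        _ hy₀Y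
      rw [Nat.cast_one, one_smul] at h1
      have h2 := congrArg (jzModule.pt (M * p) p) h1
      rw [jzModule.pt_gal] at h2
      rw [← hy₀D]
      exact h2
    have hσD : σ • (Pic0.mk D : JZero (M * p)) - Pic0.mk D = Pic0.mk D₀ := by
      rw [← hy₀D, ← hxD]
      rfl
    obtain ⟨e, T, hσf⟩ := kum_sigma (M * p) hCmp p D D₀ f f₀ hf0 hf₀0 hDf hD₀ σ hσD
    -- the data of K-ARITH
    have hσ1 : galF (M * p) σ ∈ stabAuts A (M * p) {ζ} :=
      ⟨σ, hσ, fun t ht => by rw [Set.mem_singleton_iff.1 ht]; exact hσζ, rfl⟩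
    have hkd₁ := H97.kdata_fn hT₁ hA hKD hσ (galF (M * p) σ) (fun _ => rfl)
      (hS.datum.inertial σ hσ).mem₁ (H15.fixF (M * p) (H15.inertiaSet A))
      (fun c hc => H15.const_mem_F0 (M * p) A hc) (fun g hg => H15.galF_F0 (M * p) A hσ hg) hA1₁
    have hkd₂ := H97.kdata_fn hT₂ hA hKD hσ (galF (M * p) σ) (fun _ => rfl)
      (hS.datum.inertial σ hσ).mem₂ (H15.fixF (M * p) (H15.inertiaSet A))
      (fun c hc => H15.const_mem_F0 (M * p) A hc) (fun g hg => H15.galF_F0 (M * p) A hσ hg) hA1₂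
    have hdesc2 : ∀ y : ↥(FNbar (M * p)), (∀ τ ∈ stabAuts A (M * p) {ζ, ω}, τ • y = y) →
        y ∈ IntermediateField.adjoin (H15.fixF (M * p) (H15.inertiaSet A))
          ({algebraMap (AlgebraicClosure ℚ) ↥(FNbar (M * p)) ζ,
            algebraMap (AlgebraicClosure ℚ) ↥(FNbar (M * p)) ω} : Set ↥(FNbar (M * p))) := by
      intro y hy
      refine H15.mem_adjoin_pair_of_fixed (M * p) A hp hA ζ ω fun τ hτ hτζ hτω => ?_
      refine hy _ ⟨τ, hτ, fun t ht => ?_, rfl⟩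
      rcases ht with rfl | ht
      · exact hτζ
      · rw [Set.mem_singleton_iff.1 ht]
        exact hτω
    have hbase2 : ∀ τ ∈ stabAuts A (M * p) {ζ, ω},
        SemilinearAut.baseAut τ ζ = ζ ∧ SemilinearAut.baseAut τ ω = ω := by
      rintro τ ⟨τ', -, hT, rfl⟩
      exact ⟨hT ζ (Set.mem_insert _ _), hT ω (Set.mem_insert_of_mem _ rfl)⟩
    have hσinv : ∀ z : AlgebraicClosure ℚ, σ⁻¹ (σ z) = z := by
      intro z
      rw [← AlgEquiv.mul_apply, inv_mul_cancel]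
      rfl
    have hnorm : ∀ y : ↥(FNbar (M * p)), (∀ τ ∈ stabAuts A (M * p) {ζ, ω}, τ • y = y) →
        ∀ τ ∈ stabAuts A (M * p) {ζ, ω}, τ • (galF (M * p) σ • y) = galF (M * p) σ • y := by
      rintro y hy τ ⟨τ', hτ', hT, rfl⟩
      have hτζ : τ' ζ = ζ := hT ζ (Set.mem_insert _ _)
      have hτω : τ' ω = ω := hT ω (Set.mem_insert_of_mem _ rfl)
      have hmem : galF (M * p) (σ⁻¹ * τ' * σ) ∈ stabAuts A (M * p) {ζ, ω} := by
        refine ⟨σ⁻¹ * τ' * σ,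
          Subgroup.mul_mem _ (Subgroup.mul_mem _ (Subgroup.inv_mem _ hσ) hτ') hσ,
          fun t ht => ?_, rfl⟩
        rcases ht with rfl | ht
        · rw [AlgEquiv.mul_apply, AlgEquiv.mul_apply, hσζ, hτζ]
          have := hσinv t
          rwa [hσζ] at this
        · rw [Set.mem_singleton_iff.1 ht, AlgEquiv.mul_apply, AlgEquiv.mul_apply, hσω, map_mul,
            hτζ, hτω, ← hσω]
          exact hσinv ω
      have h1 := hy _ hmem
      have h2 : galF (M * p) τ' * galF (M * p) σ =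
          galF (M * p) σ * galF (M * p) (σ⁻¹ * τ' * σ) := by
        rw [← map_mul, ← map_mul]
        congr 1
        group
      rw [← mul_smul, h2, mul_smul, h1]
    -- the abstract statement
    refine hAbs (AlgebraicClosure ℚ) ↥(FNbar (M * p)) (kV A) (RedF A (M * p)) (RedF A (M * p)) S
      hS.datum.ff hS.datum.ff₁ hS.datum.ff₁ g g₁ g₁ c c₁ c₁ hg hg₁ hg₁ hnum p hp hp2 hchar hp0
      (inertiaAuts A (M * p)) (stabAuts A (M * p) {ζ}) (stabAuts A (M * p) {ζ, ω}) hinert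
      (stabAuts_subset_inertiaAuts A (M * p) {ζ})
      (stabAuts_mono A (M * p) (by
        intro t ht
        rw [Set.mem_singleton_iff.1 ht]
        exact Set.mem_insert _ _)) hK
      (H15.fixF (M * p) (H15.inertiaSet A)) (mem_F0_iff A p M) ζ ω (galF (M * p) σ) hσ1
      hkd₁ hkd₂ hdesc2 hdesc1 hbase2 hbase1 hnorm U 12 hUGU hUfix hUnode hS.unit_two h12 h144
      hthick f (hGU_of f hfV hfr) (fun P => ⟨_, (hDf P).symm⟩) ?_
      f₀ f₀' h₀ T c₀ e (hV₁ f₀ hf₀V) ?_ (fun P => ⟨_, (hD₀ P).symm⟩)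
      ((hS.datum.mem₂ f₀').2 hf₀'V) ?_ hfact ?_ ?_
    · rintro τ ⟨τ', hτ', hT, rfl⟩
      exact hffix τ' ⟨hτ', hT⟩
    · rw [S.c₁.rd_of_mem (hV₁ f₀ hf₀V), hS.datum.red₁ ⟨f₀, hf₀V⟩ (hV₁ f₀ hf₀V)]
      exact hr₀
    · rw [S.c₂.rd_of_mem ((hS.datum.mem₂ f₀').2 hf₀'V),
        hS.datum.red₂ f₀' ((hS.datum.mem₂ f₀').2 hf₀'V) hf₀'V]
      exact hr₀'
    · rintro τ ⟨τ', hτ', hT, rfl⟩
      exact kum_fix (M * p) hCmp p D₀ f₀ hf₀0 hD₀ τ' (hcyc τ' hτ' (hT ζ rfl))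
    · rw [hσf, mul_assoc (algebraMap (AlgebraicClosure ℚ) ↥(FNbar (M * p)) e) f f₀]

end Main

end Fermat.Agent.BADP3.H66
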