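/-
helper93, BAD_3 (S39 at `p = 3`), leaf H-DROP2, modular part: `stmt_HDropT : BADP3.Stmt_HDropT`.

Copy of helper74's `BADP.H74.hdrop_core`, `hdrop_E`, `stmt_HDropP` (`BADP/H74_HDropCore.lean`,
`BADP/H74_HDrop.lean`) with the Eisenstein pair modulo `p ^ 2` (`BADP3.IsEisPair2`) and helper28's
`BADP3.H28.hdrop_abs2` instead of `hdrop_abs`.  Every prime `p`, every level `M p`, `p ∤ M`.
-/
import Fermat.Agent.BADP.H74_HDrop
import Fermat.Agent.BADP3.H28_HDrop2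
import Fermat.Agent.BADP3.Defs
attribute [local instance 10000] SubalgebraClass.toAlgebra
attribute [local instance 10000] HahnSeries.powerSeriesAlgebra

set_option autoImplicit false
set_option linter.style.haveILetI false
set_option linter.unusedSectionVars false
set_option synthInstance.maxHeartbeats 400000
set_option maxHeartbeats 1000000

noncomputable section

open AlgebraicCurve ModularCurve Fermat.Agent.S28.H73 Fermat.Agent.RED.H73 Fermat.Agent.RED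
open Fermat.Agent.BAD Fermat.Agent.S43.Old.H35 Fermat.Agent.S44 Fermat.Agent.S43.BadQ

namespace Fermat.Agent.BADP3.H93

open Fermat.Agent.BADP Fermat.Agent.BADP.H74

section Core

variable (A : ValuationSubring (AlgebraicClosure ℚ)) (M p ℓ : ℕ) [NeZero M] [NeZero (M * p)]
  [NeZero ℓ] [NeZero p]

/-- **H-DROP2 with values in `Ft A M`.** -/
theorem hdrop_core2 (hp : p.Prime) (hpM : ¬ p ∣ M) (hℓ : ℓ.Prime) (hℓN : ¬ ℓ ∣ M * p)
    (hA : A.LiesOverPrime p) (hle : Ft A (M * p) ≤ Ft A M)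
    (t : ℤ) (ht : ¬ (p : ℤ) ∣ t - ((ℓ : ℤ) + 1))
    (D : Divisor.degZero (K := AlgebraicClosure ℚ) (F := ↥(FNbar (M * p))))
    (f : ↥(gaussV A (M * p)))
    (hf : resTo A (M * p) (Ft A M) hle f ≠ 0)
    (hD : ∀ P : Place (AlgebraicClosure ℚ) ↥(FNbar (M * p)),
      (p : ℤ) * (D : Divisor (AlgebraicClosure ℚ) ↥(FNbar (M * p))) P
        = P.ord ((f : ↥(FNbar (M * p)))))
    (hT : heckeOperatorBar (M * p) ⟨ℓ, hℓ⟩ (Pic0.mk D) = t • Pic0.mk D)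
    (hd : p ∣ M * p) (c : ℤ)
    (hE : ∀ Q : Place (kV A) ↥(Ft A M),
      (0 ≤ Q.ord (jTo A M p (Ft A M) hle) →
        (p : ℤ) ^ 2 ∣ (p : ℤ) * Q.ord (resTo A (M * p) (Ft A M) hle f)
          - c * Q.ord (unitTo A M p hd (Ft A M) hle)) ∧
      (Q.ord (jTo A M p (Ft A M) hle) < 0 →
        (p : ℤ) ∣ Q.ord (resTo A (M * p) (Ft A M) hle f))) :
    ∀ Q : Place (kV A) ↥(Ft A M), (p : ℤ) ∣ Q.ord (resTo A (M * p) (Ft A M) hle f) := by
  have hℓp : ℓ ≠ p := fun h => hℓN (h ▸ dvd_mul_left ℓ M)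
  have hℓM : ¬ ℓ ∣ M := fun h => hℓN (h.mul_right p)
  have hpℓ : ¬ p ∣ ℓ := fun h => hℓp ((Nat.prime_dvd_prime_iff_eq hp hℓ).1 h).symm
  have hpMℓ : ¬ p ∣ M * ℓ := by
    intro h
    rcases (Nat.Prime.dvd_mul hp).1 h with h1 | h1
    · exact hpM h1
    · exact hpℓ h1
  obtain ⟨hα, hβ, hP, hfin, hFI, hNF⟩ := RED.H51.stmt_HKA (M * p) ℓ
  haveI := hP
  have hTI := towerInputs (A := A) (M := M) (ℓ := ℓ) hp hA hpMℓ
  haveI := hTI.hP
  have hdeg := finrank_alphaT A M ℓ p hℓ hℓM hp hpMℓ hA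
  have heig := heig_of_eigen (M * p) ℓ hℓ hα hβ hfin hFI hNF D t hT
  have hjc := coe_jTo A M p (Ft A M) hle
  have hUc := coe_unitTo A M p hp hA hd (Ft A M) hle
  have hU0 : unitTo A M p hd (Ft A M) hle ≠ 0 := by
    intro h0
    rw [h0] at hUc
    exact inv_ne_zero (pow_ne_zero _ (Fermat.Agent.BAD.H30.deltaR_ne_zero (kV A))) hUc.symm
  have htd : ¬ (p : ℤ) ∣ t - (finrankAlong (kV A) (alphaT A M ℓ) : ℤ) := by
    rw [hdeg]
    push_cast
    exact ht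
  refine Fermat.Agent.BADP3.H28.hdrop_abs2
    (fun g hg h => by
      obtain ⟨c', hc'⟩ := Fermat.Agent.GTor.H33.exists_algebraMap_eq_FN (M * p) g hg h
      exact ⟨c', hc'.symm⟩)
    (heckeAlphaBar (AlgebraicClosure ℚ) (M * p) ℓ) (heckeBetaBar (AlgebraicClosure ℚ) (M * p) ℓ)
    hα hβ hfin hNF (alphaT A M ℓ) (betaT A M ℓ) hTI.hα hTI.hβ hTI.hfin hTI.hNF
    (gaussV A (M * p)) (resTo A (M * p) (Ft A M) hle)
    (fun u => resTo_eq_zero_iff A (M * p) (Ft A M) hle u)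
    (fun g hg => resTo_scale A (M * p) (Ft A M) hle g hg)
    (fun c' h => resTo_const A (M * p) (Ft A M) hle c' h)
    (fun g => hnorm_levelN A p M ℓ hp hpM hℓ hℓN hA hle g)
    p hp t htd (D : Divisor (AlgebraicClosure ℚ) ↥(FNbar (M * p))) f hf hD heig
    (unitTo A M p hd (Ft A M) hle) hU0 c
    {Q | Q.ord (jTo A M p (Ft A M) hle) < 0} ?_ ?_ ?_ ?_
  · intro Q hQ
    exact (hE Q).1 (not_lt.mp hQ)
  · intro Q hQ
    exact (hE Q).2 hQ
  · intro Q hQ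
    have h1 : 0 ≤ (Q.restrictAlong (alphaT A M ℓ) hTI.hα).ord (jTo A M p (Ft A M) hle) :=
      not_lt.mp hQ
    have h2 := (ord_along_nonneg_iff (alphaT A M ℓ) hTI.hα Q _).2 h1
    have h3 := ord_betaT_nonneg A M ℓ hp hpℓ hA _ hjc Q h2
    have h4 := (ord_along_nonneg_iff (betaT A M ℓ) hTI.hβ Q _).1 h3
    exact not_lt.mpr h4
  · intro Q hQ
    have h1 : 0 ≤ (Q.restrictAlong (alphaT A M ℓ) hTI.hα).ord (jTo A M p (Ft A M) hle) :=
      not_lt.mp hQ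
    have h2 := (ord_along_nonneg_iff (alphaT A M ℓ) hTI.hα Q _).2 h1
    exact ord_betaT_unit A M ℓ hp hpℓ hA _ hjc _ (p - 1) hUc Q h2

/-- **H-DROP2 with values in an intermediate field `E = Ft A M`.** -/
theorem hdrop_E2 (hp : p.Prime) (hpM : ¬ p ∣ M) (hℓ : ℓ.Prime) (hℓN : ¬ ℓ ∣ M * p)
    (hA : A.LiesOverPrime p)
    (E : IntermediateField (kV A) (LaurentSeries (kV A))) (hME : Ft A M = E)
    (hle : Ft A (M * p) ≤ E)
    (t : ℤ) (ht : ¬ (p : ℤ) ∣ t - ((ℓ : ℤ) + 1))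
    (D : Divisor.degZero (K := AlgebraicClosure ℚ) (F := ↥(FNbar (M * p))))
    (f : ↥(gaussV A (M * p)))
    (hf : resTo A (M * p) E hle f ≠ 0)
    (hD : ∀ P : Place (AlgebraicClosure ℚ) ↥(FNbar (M * p)),
      (p : ℤ) * (D : Divisor (AlgebraicClosure ℚ) ↥(FNbar (M * p))) P
        = P.ord ((f : ↥(FNbar (M * p)))))
    (hT : heckeOperatorBar (M * p) ⟨ℓ, hℓ⟩ (Pic0.mk D) = t • Pic0.mk D)
    (hd : p ∣ M * p) (c : ℤ)
    (hE : ∀ Q : Place (kV A) ↥E,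
      (0 ≤ Q.ord (jTo A M p E hle) →
        (p : ℤ) ^ 2 ∣ (p : ℤ) * Q.ord (resTo A (M * p) E hle f)
          - c * Q.ord (unitTo A M p hd E hle)) ∧
      (Q.ord (jTo A M p E hle) < 0 → (p : ℤ) ∣ Q.ord (resTo A (M * p) E hle f))) :
    ∀ Q : Place (kV A) ↥E, (p : ℤ) ∣ Q.ord (resTo A (M * p) E hle f) := by
  subst hME
  exact hdrop_core2 A M p ℓ hp hpM hℓ hℓN hA hle t ht D f hf hD hT hd c hE

end Core

/-- **(d6) = H-DROP2.** -/
theorem stmt_HDropT : Fermat.Agent.BADP3.Stmt_HDropT := by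
  intro p _ hp M hpM _ A hA S t x hEig hNE D f c hpair
  obtain ⟨ℓ, hℓ, hℓS, hℓN, hℓp, hne⟩ := hNE
  haveI : NeZero ℓ := ⟨hℓ.ne_zero⟩
  haveI hM0 : NeZero M := ⟨fun h0 => NeZero.ne (M * p) (by rw [h0, zero_mul])⟩
  have hd : p ∣ M * p := Dvd.intro_left M rfl
  obtain ⟨hx, hfne, hD, hQ⟩ := hpair
  -- the eigen-equation
  have hT : heckeOperatorBar (M * p) ⟨ℓ, hℓ⟩ (Pic0.mk D) = t ℓ • Pic0.mk D := by
    have h1 := hEig ℓ hℓ hℓS hℓN hℓp
    have h2 := congrArg (jzModule.pt (M * p) p) h1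
    rw [jzModule.pt_T (M * p) p hℓ hℓN] at h2
    rw [← hx]
    exact h2.trans (coe_intCast_smul p (M * p) (t ℓ) x)
  -- the system is not Eisenstein at `ℓ`
  have ht : ¬ (p : ℤ) ∣ t ℓ - ((ℓ : ℤ) + 1) := by
    intro h
    apply hne
    have h1 := (ZMod.intCast_eq_intCast_iff_dvd_sub ((ℓ : ℤ) + 1) (t ℓ) p).2 h
    rw [← h1]
    push_cast
    ring
  have key := hdrop_E2 A M p ℓ hp hpM hℓ hℓN hA (Ft A (M * p)) (ft_mul_eq A p M hp hpM hA).symm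
    le_rfl (t ℓ) ht D f hfne hD hT hd c hQ
  exact ⟨D, f, hx, hfne, hD, fun Q => key Q⟩

end Fermat.Agent.BADP3.H93
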