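/-
helper97, S39 at `p = 3` (BAD_3, planner helper93), leaf **NODE-VAL2**:
`stmt_NodeVal2 : BADP3.Stmt_NodeVal2`.
This is helper38's `BADP.H38.stmt_NodeVal` (BADP/H38_EisNode.lean) with the hypothesis `0 < w`
in the place of `p ∤ w`: the proof is the same (it uses `p ∤ w` only through `0 < w`); the lemmas
of `BADP/H38_EisNode.lean` are used as they are.
-/
import Fermat.Agent.BADP3.Defs
import Fermat.Agent.BADP.H38_EisNode

set_option autoImplicit false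
set_option linter.style.haveILetI false

noncomputable section

open AlgebraicCurve

attribute [local instance] Classical.propDecidable

namespace Fermat.Agent.BADP3.H97

open Fermat.Agent.RED.H17 Fermat.Agent.RED Fermat.Agent.BAD Fermat.Agent.BADP
  Fermat.Agent.S15.Desc.H67 Fermat.Agent.BADP.H38 Fermat.Agent.BADP3

section Node

variable {K F k F₁ F₂ : Type} [Field K] [Field F] [Algebra K F] [Field k] [Field F₁]
  [Algebra k F₁] [Field F₂] [Algebra k F₂] [IsAlgClosed k]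

/-- **NODE-VAL** at one node. -/
theorem nodeVal2_at (S : SSD K F k F₁ F₂) (H : FFHyp K F) (H₁ : FFHyp k F₁) (H₂ : FFHyp k F₂)
    {g g₁ g₂ : ℕ} {c c₁ c₂ : ℤ} (hR : IsGenus K F g c) (hR₁ : IsGenus k F₁ g₁ c₁)
    (hR₂ : IsGenus k F₂ g₂ c₂) (hnum : g + 1 ≤ g₁ + g₂ + S.nodes.card)
    {p : ℕ} (hchar : CharP k p) (hpK : (p : K) ≠ 0)
    (𝓘 𝓘' : Set (SemilinearAut K F)) (hI : ∀ τ ∈ 𝓘, S.IsInertial τ) (hsub : 𝓘' ⊆ 𝓘)
    (hK0 : IsK0Lift S 𝓘) (F0 : Subfield F) (hF0 : ∀ y : F, y ∈ F0 ↔ ∀ τ ∈ 𝓘, τ • y = y)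
    (hval : ∀ y ∈ F0, y ≠ 0 → ∃ n : ℤ, S.c₂.V.valuation y = S.c₂.V.valuation (p : F) ^ n)
    (U : F) (w : ℕ) (hU : S.c₁.IsGU U) (hUnode : ∀ P : Place K F, S.IsNodeP P → P.ord U = 0)
    (hU₂ : S.c₂.IsGU (U / algebraMap K F ((p : K) ^ w))) (hw0 : 0 < w)
    (f : F) (hf : S.c₁.IsGU f) (hdiv : ∀ P : Place K F, (p : ℤ) ∣ P.ord f)
    (hfix : ∀ τ ∈ 𝓘', τ • f = f) {s : Place k F₁ × Place k F₂} (hs : s ∈ S.nodes) :
    ∃ (e : ℕ) (G : F) (d : ℤ), (e : ℤ) * s.1.ord (S.c₁.rd U) = w ∧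
      (∀ τ ∈ 𝓘', τ • G = G) ∧ S.c₁.IsGU G ∧
      (∀ P : Place K F, S.c₁.r P = some s.1 → (p : ℤ) * P.ord G = P.ord f) ∧
      S.c₂.V.valuation f =
        S.c₂.V.valuation (p : F) ^ ((e : ℤ) * (s.1.ord (S.c₁.rd f) - p * d)) *
          S.c₂.V.valuation G ^ p := by
  haveI : Infinite k := IsAlgClosed.instInfinite
  haveI := hchar
  -- the constant `p`
  have hpcast : algebraMap K F (p : K) = (p : F) := map_natCast _ p
  have hpV₁ : algebraMap K F (p : K) ∈ S.c₁.V := by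
    rw [hpcast]
    exact S.c₁.natCast_mem_V p
  have hp0 : S.c₁.rd (algebraMap K F (p : K)) = 0 := by
    rw [hpcast, S.c₁.rd_natCast, ← map_natCast (algebraMap k F₁), CharP.cast_eq_zero, map_zero]
  have hpF0 : algebraMap K F (p : K) ∈ F0 := by
    rw [hpcast]
    exact natCast_mem F0 p
  obtain ⟨hpV₂, hp0₂⟩ := S.rd₂_const_zero hpV₁ hp0
  have hpF_ne : (p : F) ≠ 0 := by
    rw [← hpcast]
    exact (map_ne_zero_iff _ (algebraMap K F).injective).mpr hpK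
  have hvp_ne : S.c₂.V.valuation (p : F) ≠ 0 := (Valuation.ne_zero_iff _).2 hpF_ne
  have hvp_lt : S.c₂.V.valuation (p : F) < 1 := by
    rw [← hpcast]
    exact nv_val_lt_of_rd_eq_zero hpV₂ hp0₂
  -- the unit `U`
  have hU₂' : S.c₂.IsGU (U / algebraMap K F (p : K) ^ w) := by
    rw [← map_pow]
    exact hU₂
  have hUzf : ZeroFree S s U := fun P hP => hUnode P ⟨s, hs, hP⟩
  obtain ⟨hpw₂, hpw0⟩ := rd₂_pow_unif (S := S) hpV₁ hp0 hw0
  have hpwF : algebraMap K F (p : K) ^ w ≠ 0 := by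
    rw [hpcast]
    exact pow_ne_zero w hpF_ne
  have hUeq : U = algebraMap K F (p : K) ^ w * (U / algebraMap K F (p : K) ^ w) := by
    rw [mul_div_cancel₀ _ hpwF]
  have hUV₂ : U ∈ S.c₂.V := by
    rw [hUeq]
    exact S.c₂.V.mul_mem _ _ hpw₂ hU₂'.1
  have hUr₂ : S.c₂.rd U = 0 := by
    rw [hUeq, S.c₂.rd_mul hpw₂ hU₂'.1, hpw0, zero_mul]
  have hUvan : VanAt s.1 (S.c₁.rd U) :=
    vanAt₁_of_rd₂_eq_zero hs hU.1 hUV₂ hUr₂ hUzf.poleFree
  have hUpos : 0 < s.1.ord (S.c₁.rd U) := hUvan.ord_pos hU.2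
  obtain ⟨a, ha⟩ : ∃ a : ℕ, s.1.ord (S.c₁.rd U) = a :=
    ⟨(s.1.ord (S.c₁.rd U)).toNat, (Int.toNat_of_nonneg hUpos.le).symm⟩
  have ha0 : 0 < a := by
    rw [ha] at hUpos
    exact_mod_cast hUpos
  -- (K0)
  have hK0' : ∀ u : F, u ∈ S.c₁.V → u ∈ S.c₂.V → PoleFree S s u →
      ∃ u0 ∈ F0, u0 ∈ S.c₁.V ∧ u0 ∈ S.c₂.V ∧ S.c₁.rd u0 = S.c₁.rd u ∧
        S.c₂.rd u0 = S.c₂.rd u ∧ PoleFree S s u0 := by
    intro u hu₁ hu₂ hupf
    obtain ⟨u0, hu0fix, hu0₁, hu0₂, hr₁, hr₂, hpoles⟩ := hK0 u hu₁ hu₂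
    refine ⟨u0, (hF0 u0).2 hu0fix, hu0₁, hu0₂, hr₁, hr₂, fun P hP => ?_⟩
    by_contra hneg
    rw [not_le] at hneg
    obtain ⟨P', hP'₁, -, hP'lt⟩ := hpoles P hneg
    have := hupf P' (hP'₁.trans hP)
    omega
  -- (DISC)
  have hdisc : ∀ y ∈ F0, y ∈ S.c₂.V → S.c₂.rd y = 0 → y / algebraMap K F (p : K) ∈ S.c₂.V := by
    intro y hyF hy₂ hyr
    rcases eq_or_ne y 0 with rfl | hy0
    · rw [zero_div]
      exact S.c₂.V.zero_mem
    obtain ⟨n, hn⟩ := hval y hyF hy0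
    have hylt : S.c₂.V.valuation y < 1 := nv_val_lt_of_rd_eq_zero hy₂ hyr
    have hn1 : 1 ≤ n := by
      by_contra hcon
      rw [not_le] at hcon
      have hn0 : n ≤ 0 := by omega
      have h1 : 1 ≤ S.c₂.V.valuation (p : F) ^ n :=
        one_le_zpow_of_nonpos₀ (zero_lt_iff.2 hvp_ne) hvp_lt.le hn0
      rw [← hn] at h1
      exact absurd hylt (not_lt.2 h1)
    rw [← S.c₂.V.valuation_le_one_iff, map_div₀, hn, hpcast]
    have e : S.c₂.V.valuation (p : F) ^ n / S.c₂.V.valuation (p : F) =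
        S.c₂.V.valuation (p : F) ^ (n - 1) := by
      rw [zpow_sub₀ hvp_ne, zpow_one]
    rw [e]
    exact zpow_le_one₀ (zero_lt_iff.2 hvp_ne) hvp_lt.le (by omega)
  -- the annulus coordinate
  obtain ⟨t, htF0, n, hn0, hann, hna⟩ :=
    H21.exists_isAnnCoord_of_goodLift S H H₁ H₂ hR hR₁ hR₂ hnum hs hpK hpV₁ hp0 F0 hpF0 hK0'
      hdisc hU hUzf hU₂' ha0 ha
  -- the divisor `div f / p`
  obtain ⟨Df, hDf, -⟩ := H.principal.exists_divisor f hf.ne_zero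
  set D : Place K F →₀ ℤ := Df.mapRange (fun m => m / (p : ℤ)) (Int.zero_ediv _) with hDdef
  have hDP : ∀ P : Place K F, (p : ℤ) * D P = P.ord f := by
    intro P
    rw [hDdef, Finsupp.mapRange_apply, hDf P]
    exact Int.mul_ediv_cancel' (hdiv P)
  have hpZ : (p : ℤ) ≠ 0 := by
    intro h0
    apply hpK
    have : p = 0 := by exact_mod_cast h0
    rw [this, Nat.cast_zero]
  have hDinv : ∀ τ ∈ 𝓘', ∀ P, S.c₁.r P = some s.1 → D (τ • P) = D P := by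
    intro τ hτ P _
    have h1 : (p : ℤ) * D (τ • P) = (p : ℤ) * D P := by
      rw [hDP, hDP]
      conv_lhs => rw [← hfix τ hτ]
      exact SemilinearAut.ord_smul τ P f
    exact mul_left_cancel₀ hpZ h1
  obtain ⟨G, C, hC0, hGfix, -, hGord, hG₁, hG₂, hrad⟩ :=
    H97.local_node S H.principal H.deg_one hs hann 𝓘'
      (fun τ hτ => ⟨(hI τ (hsub hτ)).r₁, (hF0 t).1 htF0 τ (hsub hτ)⟩) D hDinv
  -- the scale of `f` for `V₂`
  obtain ⟨b, hb0, hb⟩ := S.c₂.exists_isGU_scale hf.ne_zero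
  have h1f : S.c₁.IsGU (algebraMap K F 1 * f) := by
    rw [map_one, one_mul]
    exact hf
  have hcu := hrad f 1 b p h1f hb (fun P hP => (hDP P).symm)
  rw [map_one, one_mul] at hcu
  set d : ℤ := ∑ P ∈ D.support.filter (fun P => S.c₁.r P = some s.1), D P with hd
  refine ⟨n, G, d, ?_, hGfix, hG₁, fun P hP => ?_, ?_⟩
  · rw [ha]
    exact_mod_cast hna
  · rw [hGord P hP, hDP]
  · -- valuations
    have hv1 : S.c₂.V.valuation (algebraMap K F b) * S.c₂.V.valuation f = 1 := by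
      rw [← map_mul]
      exact nv_isGU_iff_val_eq_one.1 hb
    have hv2 : (S.c₂.V.valuation (algebraMap K F C))⁻¹ * S.c₂.V.valuation G = 1 := by
      rw [← map_inv₀, ← map_mul, ← map_inv₀]
      exact nv_isGU_iff_val_eq_one.1 hG₂
    have hv3 := nv_isGU_iff_val_eq_one.1 hcu.isGU₂
    simp only [map_div₀, map_mul, map_pow, map_zpow₀, map_one, map_natCast] at hv3
    have hbv : S.c₂.V.valuation (algebraMap K F b) ≠ 0 :=
      (Valuation.ne_zero_iff _).2 ((map_ne_zero_iff _ (algebraMap K F).injective).mpr hb0)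
    exact nv_value_identity hvp_ne hbv hv1 hv2 hv3

end Node

/-- Leaf **NODE-VAL2** of BAD_3. -/
theorem stmt_NodeVal2 : Stmt_NodeVal2 := by
  intro K F k F₁ F₂ _ _ _ _ _ _ _ _ _ _ S H H₁ H₂ g g₁ g₂ c c₁ c₂ hR hR₁ hR₂ hnum p _ hchar hpK
    𝓘 𝓘' hI hsub hK0 F0 hF0 hval U w hU _ hUnode hU₂ hw0 f hf hdiv hfix
  have key : ∀ s : Place k F₁ × Place k F₂, ∃ (e : ℕ) (G : F) (d : ℤ), s ∈ S.nodes →
      ((e : ℤ) * s.1.ord (S.c₁.rd U) = w ∧
      (∀ τ ∈ 𝓘', τ • G = G) ∧ S.c₁.IsGU G ∧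
      (∀ P : Place K F, S.c₁.r P = some s.1 → (p : ℤ) * P.ord G = P.ord f) ∧
      S.c₂.V.valuation f =
        S.c₂.V.valuation (p : F) ^ ((e : ℤ) * (s.1.ord (S.c₁.rd f) - p * d)) *
          S.c₂.V.valuation G ^ p) := by
    intro s
    by_cases hs : s ∈ S.nodes
    · obtain ⟨e, G, d, h⟩ := nodeVal2_at S H H₁ H₂ hR hR₁ hR₂ hnum hchar hpK 𝓘 𝓘' hI hsub hK0
        F0 hF0 hval U w hU hUnode hU₂ hw0 f hf hdiv hfix hs
      exact ⟨e, G, d, fun _ => h⟩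
    · exact ⟨0, 0, 0, fun h => absurd h hs⟩
  choose e G d h using key
  exact ⟨e, G, d, fun s hs => h s hs⟩

end Fermat.Agent.BADP3.H97
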