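/-
helper97, S39 at `p = 3` (BAD_3, planner helper93), leaf **EIS-ABS2** (wild case):
`stmt_EisAbs2 : BADP3.Stmt_EisAbs2`.
As `BADP.H97.stmt_EisAbs` (BADP/H97_EisFinal.lean), with `0 < w`, `p ^ 2 ∤ w` and (THICK) in the
place of `p ∤ w`, and the conclusion modulo `p ^ 2`; the only new point is the final arithmetic
`eis_concl2`.
-/
import Fermat.Agent.BADP3.H97_NodeVal2
import Fermat.Agent.BADP.H97_EisFinal

set_option autoImplicit false
set_option linter.style.haveILetI false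
set_option linter.unusedSectionVars false
set_option maxHeartbeats 1000000

noncomputable section

open AlgebraicCurve

attribute [local instance] Classical.propDecidable

namespace Fermat.Agent.BADP3.H97

open Fermat.Agent.RED.H17 Fermat.Agent.RED Fermat.Agent.BAD Fermat.Agent.BADP
  Fermat.Agent.BADP.H97 Fermat.Agent.BADP3

/-! ### The final arithmetic modulo `p ^ 2` -/

/-- From `e_s n_s ≡ e_s' n_s'` modulo `p`, `e_s a_s = w`, `p ∤ e_s`, `p ^ 2 ∤ w`: the vector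
`p n` is proportional to the vector `a` modulo `p ^ 2`. -/
theorem eis_concl2 {ι : Type*} {p : ℕ} (hp : p.Prime) {nodes : Finset ι}
    {e a n : ι → ℤ} {w : ℤ} (hw : ¬ (p : ℤ) ^ 2 ∣ w)
    (hea : ∀ s ∈ nodes, e s * a s = w)
    (hthick : ∀ s ∈ nodes, ¬ (p : ℤ) ∣ e s)
    (hcong : ∀ s ∈ nodes, ∀ s' ∈ nodes, (p : ℤ) ∣ e s * n s - e s' * n s') :
    ∃ m : ℤ, ∀ s ∈ nodes, (p : ℤ) ^ 2 ∣ p * n s - m * a s := by
  have hpZ : Prime (p : ℤ) := Nat.prime_iff_prime_int.mp hp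
  rcases nodes.eq_empty_or_nonempty with hemp | ⟨s₀, hs₀⟩
  · exact ⟨0, fun s hs => absurd hs (by rw [hemp]; exact Finset.notMem_empty s)⟩
  by_cases hpw : (p : ℤ) ∣ w
  · obtain ⟨w', hw'⟩ := hpw
    have hw'p : ¬ (p : ℤ) ∣ w' := by
      rintro ⟨t, ht⟩
      exact hw ⟨t, by rw [hw', ht]; ring⟩
    have hcop : IsCoprime w' (p : ℤ) := by
      rw [isCoprime_comm]
      exact (Prime.coprime_iff_not_dvd hpZ).2 hw'p
    obtain ⟨x, y, hxy⟩ := hcop
    have ha' : ∀ s ∈ nodes, ∃ a' : ℤ, a s = p * a' ∧ e s * a' = w' := by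
      intro s hs
      have h1 : (p : ℤ) ∣ e s * a s := by
        rw [hea s hs, hw']
        exact Dvd.intro _ rfl
      rcases hpZ.dvd_or_dvd h1 with h2 | h2
      · exact absurd h2 (hthick s hs)
      · obtain ⟨a', ha'⟩ := h2
        refine ⟨a', ha', ?_⟩
        have h3 := hea s hs
        rw [ha', hw'] at h3
        apply mul_left_cancel₀ hpZ.ne_zero
        linear_combination h3
    refine ⟨e s₀ * n s₀ * x, fun s hs => ?_⟩
    obtain ⟨a', has, hea'⟩ := ha' s hs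
    have h1 : (p : ℤ) ∣ e s * (n s - e s₀ * n s₀ * x * a') := by
      have e1 : e s * (n s - e s₀ * n s₀ * x * a') =
          (e s * n s - e s₀ * n s₀) + e s₀ * n s₀ * y * p := by
        linear_combination (-(e s₀ * n s₀ * x)) * hea' - (e s₀ * n s₀) * hxy
      rw [e1]
      exact dvd_add (hcong s hs s₀ hs₀) (Dvd.intro_left _ rfl)
    rcases hpZ.dvd_or_dvd h1 with h2 | h2
    · exact absurd h2 (hthick s hs)
    · obtain ⟨t, ht⟩ := h2
      refine ⟨t, ?_⟩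
      rw [has]
      linear_combination (p : ℤ) * ht
  · have hcop : IsCoprime w (p : ℤ) := by
      rw [isCoprime_comm]
      exact (Prime.coprime_iff_not_dvd hpZ).2 hpw
    obtain ⟨x, y, hxy⟩ := hcop
    refine ⟨p * (e s₀ * n s₀ * x), fun s hs => ?_⟩
    have h1 : (p : ℤ) ∣ e s * (n s - e s₀ * n s₀ * x * a s) := by
      have e1 : e s * (n s - e s₀ * n s₀ * x * a s) =
          (e s * n s - e s₀ * n s₀) + e s₀ * n s₀ * y * p := by
        have hw' := hea s hs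
        linear_combination (-(e s₀ * n s₀ * x)) * hw' - (e s₀ * n s₀) * hxy
      rw [e1]
      exact dvd_add (hcong s hs s₀ hs₀) (Dvd.intro_left _ rfl)
    rcases hpZ.dvd_or_dvd h1 with h2 | h2
    · exact absurd h2 (hthick s hs)
    · obtain ⟨t, ht⟩ := h2
      exact ⟨t, by linear_combination (p : ℤ) * ht⟩

/-- **EIS-ABS2** (wild case), from NODE-VAL2. -/
theorem stmt_EisAbs2_of_nodeVal2 (hNV : Stmt_NodeVal2) : Stmt_EisAbs2 := by
  intro K F k F₁ F₂ _ _ _ _ _ _ _ _ _ _ S H H₁ H₂ g g₁ g₂ c c₁ c₂ hR hR₁ hR₂ hnum p hp hp2 hchar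
    hpK 𝓘 𝓘1 𝓘2 h𝓘 h1 h2 hK0 F0 hF0 ζ ω σ hσ hKD₁ hKD₂ hdesc2 hdesc1 hfix2 hfix1 hnorm U w hU
    hUfix hUnode hU₂ hw0 hw2 hthick f hf hdiv hffix f₀ f₀' h₀ T a e hf₀ hf₀r hf₀div hf₀' hf₀'r hff hcls hσf
  -- NODE-VAL
  obtain ⟨en, G, d, hN⟩ := hNV K F k F₁ F₂ S H H₁ H₂ g g₁ g₂ c c₁ c₂ hR hR₁ hR₂ hnum p hp hchar
    hpK 𝓘 𝓘2 h𝓘 (h2.trans h1) hK0 F0 hF0 hKD₂.val0 U w hU hUfix hUnode hU₂ hw0 f hf hdiv hffix
  -- `θ`
  have hθF : algebraMap K F (theta ζ ω) = theta (algebraMap K F ζ) (algebraMap K F ω) :=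
    (theta_algebraMap ζ ω).symm
  have hθlt₁ : S.c₁.V.valuation (algebraMap K F (theta ζ ω)) < 1 := by
    rw [hθF]; exact hKD₁.val_theta_lt
  have hθ : S.IsCM (theta ζ ω) := ⟨(pv_mem_iff _).2 hθlt₁.le, pv_rd_eq_zero hθlt₁⟩
  have hθne : theta ζ ω ≠ 0 := by
    intro h0
    have := hKD₁.theta_ne_zero
    rw [← hθF, h0, map_zero] at this
    exact this rfl
  have hθfix : ∀ τ ∈ 𝓘2, SemilinearAut.baseAut τ (theta ζ ω) = theta ζ ω := fun τ hτ =>
    baseAut_theta τ (hfix2 τ hτ).1 (hfix2 τ hτ).2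
  -- the main line
  obtain ⟨m, hmv, hmc⟩ := eis_wild_core S H H₁ H₂ hR hR₁ hR₂ hnum p hp hchar h𝓘 h1 h2 hK0 hσ
    hnorm hθ hθne hθfix
    (fun y hy hy0 => by
      obtain ⟨m, h1', h2'⟩ := hKD₁.val_sigma_div_adjoin (hdesc2 y hy) hy0
      rw [toRingAut_coe_apply, ← hθF] at h2'
      rw [← hθF] at h1'
      exact ⟨m, h1', h2'⟩)
    (fun y hy hy0 => by
      obtain ⟨m, h1', h2'⟩ := hKD₂.val_sigma_div_adjoin (hdesc2 y hy) hy0
      rw [toRingAut_coe_apply, ← hθF] at h2'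
      rw [← hθF] at h1'
      exact ⟨m, h1', h2'⟩)
    (fun y hy hle => by
      have := hKD₁.val_sigma_sub_adjoin (hdesc2 y hy) hle
      rwa [toRingAut_coe_apply, ← hθF] at this)
    (fun y hy hle => by
      have := hKD₂.val_sigma_sub_adjoin (hdesc2 y hy) hle
      rwa [toRingAut_coe_apply, ← hθF] at this)
    (fun b hb hbm => by
      rw [hθF]
      refine val_le_theta_sq hKD₁ (hdesc1 _ fun τ hτ => ?_) (pv_lt_of_rd hbm.mem₁ hbm.rd₁)
      rw [SemilinearAut.smul_algebraMap, hb τ hτ])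
    (fun b hb hbm => by
      rw [hθF]
      refine val_le_theta_sq hKD₂ (hdesc1 _ fun τ hτ => ?_) (pv_lt_of_rd hbm.mem₂ hbm.rd₂)
      rw [SemilinearAut.smul_algebraMap, hb τ hτ])
    hf hdiv hffix hf₀ hf₀r hf₀div hf₀' hf₀'r hff hcls hσf G
    (fun s hs => ⟨(hN s hs).2.1, (hN s hs).2.2.1, (hN s hs).2.2.2.1⟩)
  -- the exponent of `v₂ f`
  have hp0 : (p : ℤ) ≠ 0 := by exact_mod_cast hp.ne_zero
  have hexp : ∀ s ∈ S.nodes, S.c₂.V.valuation f =
      S.c₂.V.valuation (algebraMap K F (theta ζ ω)) ^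
        ((p : ℤ) * ((p : ℤ) - 1) * ((en s : ℤ) * (s.1.ord (S.c₁.rd f) - p * d s)) +
          p * m s) := by
    intro s hs
    have hθ0 : S.c₂.V.valuation (algebraMap K F (theta ζ ω)) ≠ 0 := by
      rw [hθF]; exact hKD₂.val_theta_ne_zero
    have hvp : S.c₂.V.valuation (p : F) =
        S.c₂.V.valuation (algebraMap K F (theta ζ ω)) ^ ((p : ℤ) * ((p : ℤ) - 1)) := by
      rw [hθF, ← hKD₂.val_theta_pow, ← zpow_natCast]
      congr 1
      push_cast [Nat.cast_sub hp.one_le]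
      ring
    rw [(hN s hs).2.2.2.2, hvp, hmv s hs, ← zpow_mul, ← zpow_natCast, ← zpow_mul,
      ← zpow_add₀ hθ0]
    congr 1
    ring
  have hcong : ∀ s ∈ S.nodes, ∀ s' ∈ S.nodes,
      (p : ℤ) ∣ (en s : ℤ) * s.1.ord (S.c₁.rd f) - (en s' : ℤ) * s'.1.ord (S.c₁.rd f) := by
    intro s hs s' hs'
    have h3 := (hexp s hs).symm.trans (hexp s' hs')
    rw [hθF] at h3
    have h4 := hKD₂.zpow_theta_inj h3
    exact eis_cong h4 hp0 (hmc s hs s' hs')
  exact eis_concl2 hp (fun h => hw2 (by exact_mod_cast h)) (fun s hs => (hN s hs).1)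
    (fun s hs => hthick s hs (en s) (hN s hs).1) hcong

/-- **EIS-ABS2** (wild case). -/
theorem stmt_EisAbs2 : Stmt_EisAbs2 := stmt_EisAbs2_of_nodeVal2 stmt_NodeVal2

end Fermat.Agent.BADP3.H97
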