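/-
helper97, S39 at `p = 3` (BAD_3, planner helper93), leaf **EIS-ABS-TAME2**:
`stmt_EisAbsTame2 : BADP3.Stmt_EisAbsTame2`.
As helper66's `BADP.H66.stmt_EisAbsTame_of` (BADP/H66_EisTame.lean), with `0 < w`, `p ^ 2 ∤ w` and
(THICK) in the place of `p ∤ w`, and the conclusion modulo `p ^ 2` (`eis_concl2`).
-/
import Fermat.Agent.BADP3.H97_EisAbs2
import Fermat.Agent.BADP.H66_EisTame

set_option autoImplicit false
set_option linter.style.haveILetI false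
set_option linter.unusedSectionVars false

noncomputable section

open AlgebraicCurve

namespace Fermat.Agent.BADP3.H97

open Fermat.Agent.RED.H17 Fermat.Agent.RED Fermat.Agent.BAD Fermat.Agent.BADP
  Fermat.Agent.BADP3

/-- **Arithmetic core of (T), congruence.**  As in `BADP.H66.eisTame_arith`: the integers
`e s · nf s` are congruent modulo `p`. -/
theorem eisTame_cong {Γ₀ : Type*} [LinearOrderedCommGroupWithZero Γ₀] {ι : Type*}
    (nodes : Finset ι) {p : ℕ} (hp : p.Prime)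
    {π X : Γ₀} (hπ0 : 0 < π) (hπ1 : π < 1)
    (e : ι → ℕ) (nf d j : ι → ℤ)
    (hX : ∀ s ∈ nodes, X = (π ^ (p - 1)) ^ ((e s : ℤ) * (nf s - p * d s)) * (π ^ j s) ^ p) :
    ∀ s ∈ nodes, ∀ s' ∈ nodes, (p : ℤ) ∣ (e s : ℤ) * nf s - (e s' : ℤ) * nf s' := by
  have hA : ∀ s ∈ nodes,
      X = π ^ (((p : ℤ) - 1) * ((e s : ℤ) * (nf s - p * d s)) + p * j s) := by
    intro s hs
    rw [hX s hs, ← zpow_natCast π (p - 1), ← zpow_mul, ← zpow_natCast (π ^ j s) p, ← zpow_mul,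
      ← zpow_add₀ hπ0.ne']
    congr 1
    push_cast [Nat.cast_sub hp.one_le]
    ring
  intro s hs s' hs'
  have hAeq : ((p : ℤ) - 1) * ((e s : ℤ) * (nf s - p * d s)) + p * j s =
      ((p : ℤ) - 1) * ((e s' : ℤ) * (nf s' - p * d s')) + p * j s' :=
    zpow_right_injective₀ hπ0 hπ1.ne ((hA s hs).symm.trans (hA s' hs'))
  refine ⟨(e s : ℤ) * nf s - ((p : ℤ) - 1) * ((e s : ℤ) * d s) + j s - (e s' : ℤ) * nf s'
    + ((p : ℤ) - 1) * ((e s' : ℤ) * d s') - j s', ?_⟩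
  linear_combination (-1 : ℤ) * hAeq

section Core

variable {K F k F₁ F₂ : Type} [Field K] [Field F] [Algebra K F] [Field k] [Field F₁]
  [Algebra k F₁] [Field F₂] [Algebra k F₂]

/-- **(T) for one datum, modulo `p ^ 2`**, from the conclusion of (N) for the functions fixed by
`𝓘1`. -/
theorem eisTame_core2 (S : SSD K F k F₁ F₂) {p : ℕ} (hp : p.Prime) [CharP k p]
    (hpK : (p : K) ≠ 0) (𝓘1 : Set (SemilinearAut K F)) (F0 : Subfield F)
    {ζ : K} (hζ : IsPrimitiveRoot ζ p)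
    (hval₂ : ∀ y ∈ F0, y ≠ 0 → ∃ n : ℤ, S.c₂.V.valuation y = S.c₂.V.valuation (p : F) ^ n)
    (hdesc : ∀ y : F, (∀ τ ∈ 𝓘1, τ • y = y) →
      y ∈ IntermediateField.adjoin F0 ({algebraMap K F ζ} : Set F))
    (U : F) {w : ℕ} (hw2 : ¬ p ^ 2 ∣ w)
    (hthick : ∀ s ∈ S.nodes, ∀ e : ℤ, e * s.1.ord (S.c₁.rd U) = w → ¬ (p : ℤ) ∣ e) (f : F)
    (hN : ∃ (e : Place k F₁ × Place k F₂ → ℕ) (G : Place k F₁ × Place k F₂ → F)
        (d : Place k F₁ × Place k F₂ → ℤ), ∀ s ∈ S.nodes,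
        (e s : ℤ) * s.1.ord (S.c₁.rd U) = w ∧
        (∀ τ ∈ 𝓘1, τ • G s = G s) ∧ S.c₁.IsGU (G s) ∧
        (∀ P : Place K F, S.c₁.r P = some s.1 → (p : ℤ) * P.ord (G s) = P.ord f) ∧
        S.c₂.V.valuation f =
          S.c₂.V.valuation (p : F) ^ ((e s : ℤ) * (s.1.ord (S.c₁.rd f) - p * d s)) *
            S.c₂.V.valuation (G s) ^ p) :
    ∃ m : ℤ, ∀ s ∈ S.nodes,
      (p : ℤ) ^ 2 ∣ p * s.1.ord (S.c₁.rd f) - m * s.1.ord (S.c₁.rd U) := by
  classical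
  obtain ⟨e, G, d, hN⟩ := hN
  have hζF : IsPrimitiveRoot (algebraMap K F ζ) p :=
    hζ.map_of_injective (algebraMap K F).injective
  have hv : S.c₂.V.valuation (p : F) < 1 := Fermat.Agent.BADP.H66.val₂_natCast_lt_one S p
  have hpF : (p : F) ≠ 0 := by
    have h : ((p : ℕ) : F) = algebraMap K F (p : K) := (map_natCast (algebraMap K F) p).symm
    rw [h]
    exact (map_ne_zero (algebraMap K F)).2 hpK
  have hv0 : S.c₂.V.valuation (p : F) ≠ 0 := (Valuation.ne_zero_iff _).2 hpF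
  have hπpow := Fermat.Agent.BADP.H97.val_root_sub_one_pow S.c₂.V.valuation hp hζF
  have hp1 : p - 1 ≠ 0 := Nat.sub_ne_zero_of_lt hp.one_lt
  have hπ0 : S.c₂.V.valuation (algebraMap K F ζ - 1) ≠ 0 := by
    intro h0
    rw [h0, zero_pow hp1] at hπpow
    exact hv0 hπpow.symm
  have hπ1 : S.c₂.V.valuation (algebraMap K F ζ - 1) < 1 := by
    by_contra hge
    rw [not_lt] at hge
    have h1 : (1 : S.c₂.V.ValueGroup) ≤ S.c₂.V.valuation (algebraMap K F ζ - 1) ^ (p - 1) :=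
      one_le_pow₀ hge
    rw [hπpow] at h1
    exact absurd hv (not_lt.2 h1)
  -- the values of the `G s`
  have hj : ∀ s : Place k F₁ × Place k F₂, ∃ j : ℤ, s ∈ S.nodes →
      S.c₂.V.valuation (G s) = S.c₂.V.valuation (algebraMap K F ζ - 1) ^ j := by
    intro s
    by_cases hs : s ∈ S.nodes
    · obtain ⟨-, hfix, hGU, -, -⟩ := hN s hs
      obtain ⟨j, hj⟩ := Fermat.Agent.BADP.H97.val_k1 S.c₂.V.valuation hp hζF hv hv0 hval₂
        (hdesc (G s) hfix) hGU.ne_zero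
      exact ⟨j, fun _ => hj⟩
    · exact ⟨0, fun h => absurd h hs⟩
  choose j hj using hj
  have hcong := eisTame_cong S.nodes hp (zero_lt_iff.2 hπ0) hπ1 e
    (fun s => s.1.ord (S.c₁.rd f)) d j (X := S.c₂.V.valuation f) (fun s hs => by
      obtain ⟨-, -, -, -, hval⟩ := hN s hs
      rw [hval, hπpow, hj s hs])
  exact eis_concl2 hp (w := (w : ℤ)) (fun h => hw2 (by exact_mod_cast h))
    (fun s hs => (hN s hs).1) (fun s hs => hthick s hs (e s) (hN s hs).1) hcong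

end Core

/-- **EIS-ABS-TAME2** from **NODE-VAL2**. -/
theorem stmt_EisAbsTame2_of (hN : Stmt_NodeVal2) : Stmt_EisAbsTame2 := by
  intro K F k F₁ F₂ _ _ _ _ _ _ _ _ _ _ S H H₁ H₂ g g₁ g₂ c c₁ c₂ hR hR₁ hR₂ hnum p hp _hp2
    hchar hpK 𝓘 𝓘1 hI h1 hK0 F0 hF0 ζ hζ _hval₁ hval₂ hdesc _hζfix U w hU hUfix hUnode hU₂ hw0
    hw2 hthick f hf hfdiv hffix
  haveI : CharP k p := hchar
  exact eisTame_core2 S hp hpK 𝓘1 F0 hζ hval₂ hdesc U hw2 hthick f
    (hN K F k F₁ F₂ S H H₁ H₂ g g₁ g₂ c c₁ c₂ hR hR₁ hR₂ hnum p hp hchar hpK 𝓘 𝓘1 hI h1 hK0 F0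
      hF0 hval₂ U w hU hUfix hUnode hU₂ hw0 f hf hfdiv hffix)

/-- **EIS-ABS-TAME2**. -/
theorem stmt_EisAbsTame2 : Stmt_EisAbsTame2 := stmt_EisAbsTame2_of stmt_NodeVal2

end Fermat.Agent.BADP3.H97
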