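/-
helper93 (copy of helper33's `BADP/H33_ModU.lean` with `TameAt M p` instead of `5 ≤ p`), BAD_3, leaf MOD-T+: the modular semistable Deuring datum at `p`
with the cusps and the modular unit (`BADP.Stmt_ModPlusP`), for the FIXED datum `H33.modS`.

* `unit_fixed_modS`, `unit_two_modS`, `unit_ord_modS` : the three facts on the modular unit
  `U = Δ(z)/Δ(pz)`;
* `Stmt_CuspNotNode` : the cusps (poles of `j~`) are not nodes of `H33.modTot` (CUSP, general
  level; helper69 / helper21);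
* `cusp_good_modS` : CUSP in the form `cusp_good`;
* `stmt_ModPlusP_of : Stmt_CuspNotNode → Stmt_ModPlusP`.
-/
import Fermat.Agent.BADP3.H33_ModP
import Fermat.Agent.BADP.EisMod
import Fermat.Agent.BAD.H21_UnitW

set_option autoImplicit false
set_option linter.style.haveILetI false
set_option synthInstance.maxHeartbeats 400000
set_option maxHeartbeats 1000000

noncomputable section

open HahnSeries IntermediateField AlgebraicCurve ModularCurve
open Fermat.Agent.S28.H73 Fermat.Agent.RED.H73 Fermat.Agent.RED Fermat.Agent.S24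
open Fermat.Agent.BAD.H88

namespace Fermat.Agent.BADP3.H33

open Fermat.Agent.BADP

open Fermat.Agent.BAD Fermat.Agent.BAD.H91 Fermat.Agent.S43.BadQ

/-- speed: shortcut for an instance which is synthesised many times in this file. -/
local instance (priority := 100000) speedH93U_kV_F1 (A : ValuationSubring (AlgebraicClosure ℚ))
    (q M : ℕ) [NeZero (M * q)] : Algebra (kV A) (F1 A q M) := inferInstance

/-- speed: shortcut for an instance which is synthesised many times in this file. -/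
local instance (priority := 100000) speedH93U_kV_RedF (A : ValuationSubring (AlgebraicClosure ℚ))
    (N : ℕ) [NeZero N] : Algebra (kV A) (RedF A N) := inferInstance

section Unit

variable (A : ValuationSubring (AlgebraicClosure ℚ)) (p M : ℕ) (a b : ℤ)
  (hab : a * p + b * M = 1) (hp : p.Prime) [NeZero (M * p)] [NeZero p] (ht : Fermat.Agent.BAD.H91.TameAt M p)
  (hA : A.LiesOverPrime p)

/-- The modular unit is fixed by the coefficientwise Galois action. -/
theorem unit_fixed (σ : GalQ) (hd : p ∣ M * p) :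
    galF (M * p) σ • Fermat.Agent.BAD.H30.unitF (M * p) p hd =
      Fermat.Agent.BAD.H30.unitF (M * p) p hd := by
  apply Subtype.ext
  rw [coe_arithmeticGalois_smul]
  show coeffMap _ (coeffEmb (AlgebraicClosure ℚ) _) = coeffEmb (AlgebraicClosure ℚ) _
  exact coeffMap_coeffEmb σ _

/-- The modular unit is a unit of the Gauss valuation ring. -/
theorem unit_inv_mem (hd : p ∣ M * p) :
    (Fermat.Agent.BAD.H30.unitF (M * p) p hd)⁻¹ ∈ V1 A p M ∧
      ∀ h : (Fermat.Agent.BAD.H30.unitF (M * p) p hd)⁻¹ ∈ V1 A p M,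
        red1 A p M ⟨_, h⟩ ≠ 0 := by
  have hu : Fermat.Agent.BAD.H30.unitF (M * p) p hd ∈ V1 A p M :=
    Fermat.Agent.BAD.H30.unitF_mem_gaussV A (M * p) p hd
  have hne : red1 A p M ⟨_, hu⟩ ≠ 0 :=
    Fermat.Agent.BAD.H30.gaussRes_unitF_ne_zero A (M * p) p hd
  have hnm : (⟨_, hu⟩ : ↥(V1 A p M)) ∉ IsLocalRing.maximalIdeal ↥(V1 A p M) := fun h =>
    hne ((red1_eq_zero_iff A p M _).2 h)
  have hunit : IsUnit (⟨_, hu⟩ : ↥(V1 A p M)) := by
    by_contra h
    exact hnm ((IsLocalRing.mem_maximalIdeal _).2 h)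
  obtain ⟨v, hv⟩ := hunit
  have hinv : (((v⁻¹ : (↥(V1 A p M))ˣ) : ↥(V1 A p M)) : FN (M * p)) =
      (Fermat.Agent.BAD.H30.unitF (M * p) p hd)⁻¹ := by
    have h3 : (((v⁻¹ : (↥(V1 A p M))ˣ) : ↥(V1 A p M)) : FN (M * p)) *
        Fermat.Agent.BAD.H30.unitF (M * p) p hd = 1 := by
      have h4 := congrArg (fun z : ↥(V1 A p M) => (z : FN (M * p))) (Units.inv_mul v)
      rw [hv] at h4
      exact h4
    exact eq_inv_of_mul_eq_one_left h3
  have hmem : (Fermat.Agent.BAD.H30.unitF (M * p) p hd)⁻¹ ∈ V1 A p M := by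
    rw [← hinv]
    exact ((v⁻¹ : (↥(V1 A p M))ˣ) : ↥(V1 A p M)).2
  refine ⟨hmem, fun h h0 => ?_⟩
  have h1 : (⟨_, h⟩ : ↥(V1 A p M)) * ⟨_, hu⟩ = 1 := by
    apply Subtype.ext
    show (Fermat.Agent.BAD.H30.unitF (M * p) p hd)⁻¹ * Fermat.Agent.BAD.H30.unitF (M * p) p hd
      = 1
    exact inv_mul_cancel₀ (Fermat.Agent.BAD.H30.unitF_ne_zero (M * p) p hd)
  have h2 := congrArg (red1 A p M) h1
  rw [map_mul, h0, zero_mul, map_one] at h2
  exact zero_ne_one h2

/-- `w_p (U / p ^ 12) = U⁻¹`. -/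
theorem wq_unit_div (hd : p ∣ M * p) :
    wq p M a b hab hp (Fermat.Agent.BAD.H30.unitF (M * p) p hd /
      algebraMap (AlgebraicClosure ℚ) ↥(FNbar (M * p)) ((p : AlgebraicClosure ℚ) ^ 12))
      = (Fermat.Agent.BAD.H30.unitF (M * p) p hd)⁻¹ := by
  have hp0 : ((p : AlgebraicClosure ℚ) ^ 12) ≠ 0 :=
    pow_ne_zero _ (Nat.cast_ne_zero.2 hp.ne_zero)
  have hc0 : algebraMap (AlgebraicClosure ℚ) ↥(FNbar (M * p)) ((p : AlgebraicClosure ℚ) ^ 12)
      ≠ 0 := by
    intro h
    exact hp0 ((map_eq_zero _).1 h)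
  rw [map_div₀, Fermat.Agent.BAD.H21.wq_unitF p M a b hab hp hd, AlgEquiv.commutes]
  field_simp

end Unit

section Datum

variable (A : ValuationSubring (AlgebraicClosure ℚ)) (p M : ℕ) (a b : ℤ)
  (hab : a * p + b * M = 1) (hp : p.Prime) [NeZero (M * p)] [NeZero p] (ht : Fermat.Agent.BAD.H91.TameAt M p)
  (hA : A.LiesOverPrime p)

/-- `unit_fixed` for the modular datum. -/
theorem unit_fixed_modS : ∀ σ ∈ A.inertiaSubgroupIn ℚ,
    galF (M * p) σ • Fermat.Agent.BAD.H30.unitF (M * p) p (Dvd.intro_left M rfl) =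
      Fermat.Agent.BAD.H30.unitF (M * p) p (Dvd.intro_left M rfl) :=
  fun σ _ => unit_fixed p M σ _

/-- `unit_two` for the modular datum: `U / p ^ 12` is a unit for the second valuation. -/
theorem unit_two_modS :
    (modS A p M a b hab hp ht hA).c₂.IsGU
      (Fermat.Agent.BAD.H30.unitF (M * p) p (Dvd.intro_left M rfl) /
        algebraMap (AlgebraicClosure ℚ) ↥(FNbar (M * p)) ((p : AlgebraicClosure ℚ) ^ 12)) := by
  obtain ⟨hmem, hne⟩ := unit_inv_mem A p M (Dvd.intro_left M rfl)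
  have hw := wq_unit_div p M a b hab hp (Dvd.intro_left M rfl)
  have hV : Fermat.Agent.BAD.H30.unitF (M * p) p (Dvd.intro_left M rfl) /
      algebraMap (AlgebraicClosure ℚ) ↥(FNbar (M * p)) ((p : AlgebraicClosure ℚ) ^ 12) ∈
        V2 A p M a b hab hp := by
    rw [mem_V2_iff, hw]
    exact hmem
  refine ⟨hV, ?_⟩
  rw [(modS A p M a b hab hp ht hA).c₂.rd_of_mem hV]
  show red1 A p M ⟨wq p M a b hab hp
    (Fermat.Agent.BAD.H30.unitF (M * p) p (Dvd.intro_left M rfl) /
      algebraMap (AlgebraicClosure ℚ) ↥(FNbar (M * p)) ((p : AlgebraicClosure ℚ) ^ 12)), hV⟩ ≠ 0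
  have e : (⟨wq p M a b hab hp (Fermat.Agent.BAD.H30.unitF (M * p) p (Dvd.intro_left M rfl) /
      algebraMap (AlgebraicClosure ℚ) ↥(FNbar (M * p)) ((p : AlgebraicClosure ℚ) ^ 12)), hV⟩ :
        ↥(V1 A p M)) = ⟨_, hmem⟩ := Subtype.ext hw
  rw [e]
  exact hne hmem

/-- `unit_ord` for the modular datum: the modular unit has neither zero nor pole on the fibres
of the non-cuspidal places of the first component. -/
theorem unit_ord_modS (P : Place (AlgebraicClosure ℚ) ↥(FNbar (M * p)))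
    (Q : Place (kV A) (RedF A (M * p)))
    (hr : (modS A p M a b hab hp ht hA).c₁.r P = some Q)
    (hQ : 0 ≤ Q.ord (Fermat.Agent.BAD.H91.jRed A (M * p))) :
    P.ord (Fermat.Agent.BAD.H30.unitF (M * p) p (Dvd.intro_left M rfl)) = 0 := by
  have hqM : ¬ p ∣ M := not_dvd_of_bezout hab hp
  haveI : NeZero M := neZero_left M p
  have hr' : (modTot A p M a b hab hp ht hA).r₁ P = some Q := hr
  obtain ⟨hρ, -⟩ := H79.TotData.r₁_eq_some_iff.1 hr'
  have hρ' : rhoF1 a b hab hp hA hqM ht P = Q := hρ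
  apply ord_unitF_eq_zero_of_rhoM hp hqM ht hA (Dvd.intro_left M rfl) P
  have hk : kappa A p M a b hab hp hA Q = rhoM hp hqM ht hA P := by
    rw [← hρ']
    exact kappa_rhoF1 a b hab hp hA hqM ht P
  rw [← hk]
  have hcoe : ((Fermat.Agent.BAD.H91.jRed A (M * p) : F1 A p M) : LaurentSeries (kV A))
      = ((Fermat.Agent.BAD.H91.jRed A M : ↥(Fermat.Agent.BAD.H91.redM A M)) :
          LaurentSeries (kV A)) := by
    rw [show ((Fermat.Agent.BAD.H91.jRed A M : ↥(Fermat.Agent.BAD.H91.redM A M)) :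
        LaurentSeries (kV A)) = jqModC (kV A) from RED.H73.red_jF A M]
    exact RED.H73.red_jF A (M * p)
  rw [kappa_ord A p M a b hab hp hA Q (Fermat.Agent.BAD.H91.jRed A (M * p))
    (Fermat.Agent.BAD.H91.jRed A M) hcoe]
  exact hQ

end Datum

/-- **(CUSP), general level, for the fixed modular datum**: the cusps of the reduction (the poles
of `j~`) are not nodes. -/
def Stmt_CuspNotNode : Prop :=
  ∀ (p M : ℕ) (ht : Fermat.Agent.BAD.H91.TameAt M p) (a b : ℤ) (hab : a * p + b * M = 1) (hp : p.Prime)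
    [NeZero (M * p)],
    ∀ (A : ValuationSubring (AlgebraicClosure ℚ)) (hA : A.LiesOverPrime p),
    ∀ Q : Place (kV A) (RedF A (M * p)),
      Q.ord (Fermat.Agent.BAD.H91.jRed A (M * p)) < 0 →
        ¬ (modTot A p M a b hab hp ht hA).IsNode Q

/-- `cusp_good` for the modular datum, from (CUSP). -/
theorem cusp_good_modS (hC : Stmt_CuspNotNode) (A : ValuationSubring (AlgebraicClosure ℚ))
    (p M : ℕ) (a b : ℤ) (hab : a * p + b * M = 1) (hp : p.Prime) [NeZero (M * p)] (ht : Fermat.Agent.BAD.H91.TameAt M p)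
    (hA : A.LiesOverPrime p) (Q : Place (kV A) (RedF A (M * p)))
    (hQ : Q.ord (Fermat.Agent.BAD.H91.jRed A (M * p)) < 0) :
    Q ∈ (modS A p M a b hab hp ht hA).c₁.good := by
  haveI : IsAlgClosed (kV A) := isAlgClosed_kV A
  rw [(modS A p M a b hab hp ht hA).good₁]
  intro s hs hsQ
  have hs' : s ∈ (modTot A p M a b hab hp ht hA).nodes (ffHyp p M).principal
      (ffHyp₁ A p M a b hab hp ht hA).principal := hs
  obtain ⟨hnode, -⟩ := (H79.TotData.mem_nodes _ _).1 hs'
  rw [hsQ] at hnode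
  exact hC p M ht a b hab hp A hA Q hQ hnode

/-- **(MOD-P+)** from (CUSP). -/
theorem stmt_ModPlusT_of (hC : Stmt_CuspNotNode) : Stmt_ModPlusT := by
  intro p _ M ht a b hab hp _ A hA
  exact ⟨modS A p M a b hab hp ht hA,
    { datum := isModDatum_modS A p M a b hab hp ht hA
      cusp_good := fun Q hQ => cusp_good_modS hC A p M a b hab hp ht hA Q hQ
      unit_ord := fun P Q hr hQ => unit_ord_modS A p M a b hab hp ht hA P Q hr hQ
      unit_two := unit_two_modS A p M a b hab hp ht hA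
      unit_fixed := unit_fixed_modS A p M }⟩

end Fermat.Agent.BADP3.H33
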