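/-
helper93 (copy of helper33's `BADP/H33_ModFinal.lean` with `TameAt M p` instead of `5 ≤ p`), BAD_3, leaf MOD-T+ (final): `BADP.Stmt_ModPlusP`, unconditional.

* `stmt_CuspNotNode : Stmt_CuspNotNode` from helper69's `coordCusp_gen` (CUSP at a general
  level `M q`);
* `stmt_ModPlusP : Stmt_ModPlusP`, with the FIXED datum `H33.modS`.
-/
import Fermat.Agent.BADP3.H33_ModU
import Fermat.Agent.S15.Desc.H69_CoordCuspGen

set_option autoImplicit false
set_option linter.style.haveILetI false
set_option synthInstance.maxHeartbeats 400000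
set_option maxHeartbeats 1000000

noncomputable section

open HahnSeries IntermediateField AlgebraicCurve ModularCurve
open Fermat.Agent.S28.H73 Fermat.Agent.RED.H73 Fermat.Agent.RED Fermat.Agent.S24
open Fermat.Agent.BAD.H88

namespace Fermat.Agent.BADP3.H33

open Fermat.Agent.BADP

open Fermat.Agent.BAD Fermat.Agent.BAD.H91 Fermat.Agent.S43.BadQ

/-- **(CUSP)** for the fixed modular datum: the poles of `j~` are not nodes. -/
theorem stmt_CuspNotNode : Stmt_CuspNotNode := by
  intro p M ht a b hab hp _ A hA Q hQ hnode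
  have hqM : ¬ p ∣ M := not_dvd_of_bezout hab hp
  haveI : NeZero M := neZero_left M p
  haveI : NeZero p := ⟨hp.ne_zero⟩
  have hcoe : ((Fermat.Agent.BAD.H91.jRed A (M * p) : F1 A p M) : LaurentSeries (kV A))
      = ((Fermat.Agent.BAD.H91.jRed A M : ↥(Fermat.Agent.BAD.H91.redM A M)) :
          LaurentSeries (kV A)) := by
    rw [show ((Fermat.Agent.BAD.H91.jRed A M : ↥(Fermat.Agent.BAD.H91.redM A M)) :
        LaurentSeries (kV A)) = jqModC (kV A) from RED.H73.red_jF A M]
    exact RED.H73.red_jF A (M * p)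
  have hz₀ : (kappa A p M a b hab hp hA Q).ord (Fermat.Agent.BAD.H91.jRed A M) < 0 := by
    rw [kappa_ord A p M a b hab hp hA Q (Fermat.Agent.BAD.H91.jRed A (M * p))
      (Fermat.Agent.BAD.H91.jRed A M) hcoe]
    exact hQ
  have h := Fermat.Agent.S15.Desc.H69C.coordCusp_gen a b hab hp hA hqM ht
    (totMod A p M a b hab hp hA hqM ht) (kappa A p M a b hab hp hA Q) hz₀
  rw [Equiv.symm_apply_apply] at h
  exact h hnode

/-- **(MOD-P+)**: the modular datum with the cusps and the modular unit exists. -/
theorem stmt_ModPlusT : Stmt_ModPlusT := stmt_ModPlusT_of stmt_CuspNotNode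

end Fermat.Agent.BADP3.H33
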