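/-
helper93, BAD_3 (BAD_p at the tame levels, `p = 3` included): the wiring.
Plan: `NOTES/plan/L_S39_BAD3.md` (v2).  Statements: `BADP3/Defs.lean`.

* `stmt_K0LiftT : Stmt_K0LiftT` (helper11's `isK0Lift_mod`);
* `hasBadStructureT_of` : (d) `Stmt_SlopeT` and (e) `Stmt_RayT` give `HasBadStructure` at the
  tame level `M p` ((c) is `S43.Old.old_done`, unconditional);
* `stmt_BadP2T_of_leaves` : `Stmt_BadP2T` from the open leaves;
* `removesPT_of` : Mazur's principle at `p` (module form) at the tame levels.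
-/
import Fermat.Agent.BADP3.H33_ModFinal
import Fermat.Agent.BADP.H11_K0LiftP
import Fermat.Agent.BADP.H57_Kum
import Fermat.Agent.S44.H66_GoodRoot
import Fermat.Agent.S43.Old.OldDone

set_option autoImplicit false
set_option synthInstance.maxHeartbeats 400000
set_option maxHeartbeats 1000000

noncomputable section

open AlgebraicCurve ModularCurve

namespace Fermat.Agent.BADP3

open Fermat.Agent.BAD Fermat.Agent.S44 Fermat.Agent.S43.BadQ Fermat.Agent.S28.H73
  Fermat.Agent.RED.H73 Fermat.Agent.BADP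

/-- **(K0-T)**, unconditional. -/
theorem stmt_K0LiftT : Stmt_K0LiftT := by
  intro p M a b hab hp _ A hA S hS
  exact Fermat.Agent.BADP.H11.isK0Lift_mod hA hS _ (fun τ hτ => hτ)

section Wiring

variable (p M : ℕ) (a b : ℤ) (hab : a * p + b * M = 1) (hp : p.Prime) [NeZero (M * p)]
variable (A : ValuationSubring (AlgebraicClosure ℚ))

include hab hp in
/-- **The wiring at a tame level `M p`.** -/
theorem hasBadStructureT_of (hS : Stmt_SlopeT) (hR : Stmt_RayT)
    (hp2 : p ≠ 2) (hpM : ¬ p ∣ M) (ht : Fermat.Agent.BAD.H91.TameAt M p)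
    (hA : A.LiesOverPrime p) :
    (jzModule (M * p) p).HasBadStructure (M * p) A := by
  have hpN : p ∣ M * p := Dvd.intro_left M rfl
  have hp2N : ¬ p ^ 2 ∣ M * p := by
    rintro ⟨k, hk⟩
    apply hpM
    refine ⟨k, ?_⟩
    have h1 : M * p = (p * k) * p := by rw [hk]; ring
    exact Nat.eq_of_mul_eq_mul_right hp.pos h1
  have hW := Fermat.Agent.S43.H88.stmt_WHecke
  obtain ⟨w, hwdef⟩ : ∃ w : Module.End (ZMod p) (jzModule (M * p) p).J,
      w = wTors p M a b hab hp p := ⟨_, rfl⟩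
  have hwT : ∀ {S : Finset ℕ} {t : ℕ → ℤ} {x : (jzModule (M * p) p).J},
      (jzModule (M * p) p).IsEigen (M * p) S t x →
      (jzModule (M * p) p).IsEigen (M * p) S t (w x) := by
    intro S t x hT ℓ hℓ hℓS hℓN hℓp
    have h1 := wTors_T p M a b hab hp p hW hℓ hℓN x
    have h2 := hT ℓ hℓ hℓS hℓN hℓp
    rw [hwdef]
    exact h1.trans ((congrArg (wTors p M a b hab hp p) h2).trans
      (map_smul (wTors p M a b hab hp p) _ _))
  have hgal : ∀ (σ : GQ) (z : (jzModule (M * p) p).J),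
      (jzModule (M * p) p).gal σ (w z) = w ((jzModule (M * p) p).gal σ z) := by
    intro σ z
    rw [hwdef]
    exact wTors_gal p M a b hab hp p σ z
  have hpt : ∀ z : (jzModule (M * p) p).J,
      jzModule.pt (M * p) p (w z) = wS p M a b hab hp • jzModule.pt (M * p) p z := by
    intro z
    rw [hwdef]
    rfl
  have hmemG : ∀ z : (jzModule (M * p) p).J, z ∈ finP p M a b hab hp A ↔
      Fin1 A (M * p) p (jzModule.pt (M * p) p z) ∧
        Fin1 A (M * p) p (jzModule.pt (M * p) p (w z)) := by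
    intro z
    rw [hpt z]
    exact mem_finP_iff p M a b hab hp A z
  have hmemT : ∀ z : (jzModule (M * p) p).J, z ∈ toric p M a b hab hp p A ↔
      InK1 A (M * p) p (jzModule.pt (M * p) p z) ∧
        InK1 A (M * p) p (jzModule.pt (M * p) p (w z)) := by
    intro z
    rw [hpt z]
    exact mem_toric_iff p M a b hab hp p A z
  have hO : ∀ (S : Finset ℕ) (t : ℕ → ℤ) (x : (jzModule (M * p) p).J),
      Fin1 A (M * p) p (jzModule.pt (M * p) p x) →
      ¬ InK1 A (M * p) p (jzModule.pt (M * p) p x) →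
      (jzModule (M * p) p).IsEigen (M * p) S t x →
      ComesFromLevel p (M * p) (M * p / p) S t := fun S t x hF hK hT =>
    Fermat.Agent.S43.Old.old_done p hp (M * p) p hp hpN hp2N A hA S t x hF hK hT
  refine ⟨toric p M a b hab hp p A, finP p M a b hab hp A, ?_, ?_, ?_⟩
  · -- (c)
    intro S t x hxG hxT hT
    have hxG' := (hmemG x).1 hxG
    by_cases h1 : InK1 A (M * p) p (jzModule.pt (M * p) p x)
    · have h2 : ¬ InK1 A (M * p) p (jzModule.pt (M * p) p (w x)) := by
        intro h2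
        exact hxT ((hmemT x).2 ⟨h1, h2⟩)
      exact hO S t (w x) hxG'.2 h2 (hwT hT)
    · exact hO S t x hxG'.1 h1 hT
  · -- (d)
    intro S t x Y u hT hNE hY hsub hu hfix
    refine (hmemG x).2
      ⟨hS p hp hp2 M hpM ht A hA S t x Y u hT hNE hY hsub hu hfix, ?_⟩
    have hY' : (jzModule (M * p) p).IsCycOn A (Y.map w) := by
      intro σ hσ n hn y hy
      obtain ⟨y0, hy0, rfl⟩ := Submodule.mem_map.mp hy
      rw [hgal σ y0, hY σ hσ n hn y0 hy0, map_smul]
    have hsub' : ∀ σ ∈ A.inertiaSubgroupIn ℚ,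
        (jzModule (M * p) p).gal σ (w x) - w x ∈ Y.map w := by
      intro σ hσ
      have h1 : (jzModule (M * p) p).gal σ (w x) - w x =
          w ((jzModule (M * p) p).gal σ x - x) := by
        rw [hgal σ x, map_sub]
      rw [h1]
      exact Submodule.mem_map_of_mem (hsub σ hσ)
    have hfix' : (jzModule (M * p) p).IsPeuFixed A u (w x) := by
      intro σ hσ h1 h2
      rw [hgal σ x, hfix σ hσ h1 h2]
    exact hS p hp hp2 M hpM ht A hA S t (w x) (Y.map w) u (hwT hT) hNE hY' hsub' hu hfix'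
  · -- (e)
    intro x Y u hx hY hsub hu hfix
    have hx' := (hmemT x).1 hx
    rw [hpt x] at hx'
    exact hR p hp2 M ht a b hab hp A hA x Y u hx'.1 hx'.2 hY hsub hu hfix

end Wiring

/-- **`Stmt_BadP2T` from (d) and (e).** -/
theorem stmt_BadP2T_of (hS : Stmt_SlopeT) (hR : Stmt_RayT) : Stmt_BadP2T := by
  intro p hp hp2 M hpM ht _ A hA
  have hcop : IsCoprime (p : ℤ) (M : ℤ) :=
    Nat.isCoprime_iff_coprime.2 ((Nat.Prime.coprime_iff_not_dvd hp).2 hpM)
  obtain ⟨a, b, hab⟩ := hcop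
  exact hasBadStructureT_of p M a b hab hp A hS hR hp2 hpM ht hA

/-- (d) SLOPE at the tame levels from its leaves. -/
theorem stmt_SlopeT_of_leaves (hEisMod : Stmt_EisModT) (hAbs : Stmt_EisAbs2)
    (hTame : Stmt_EisAbsTame2) (hThick : Stmt_Thick) (hDrop : Stmt_HDropT) : Stmt_SlopeT :=
  stmt_SlopeT_of
    (hEisMod Fermat.Agent.BADP3.H33.stmt_ModPlusT stmt_K0LiftT
      Fermat.Agent.BADP.H57.stmt_KumCmp Fermat.Agent.BADP.H57.stmt_KumW hAbs hTame hThick)
    hDrop

/-- (e) RAY at the tame levels from its leaf. -/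
theorem stmt_RayT_of_leaves (hRayMod : Stmt_RayModT) : Stmt_RayT :=
  stmt_RayT_of_rayK3xT
    (hRayMod Fermat.Agent.BADP3.H33.stmt_ModT stmt_K0LiftT Fermat.Agent.BADP.H57.stmt_KumFix
      Fermat.Agent.BADP.H57.stmt_KumW)
    Fermat.Agent.S44.H66.stmt_GoodRoot

/-- **BAD_p at the tame levels from the open leaves** (state 05:30Z): EIS-MOD-T, EIS-ABS2,
EIS-ABS-TAME2, THICK, H-DROP2, RAY-MOD-T. -/
theorem stmt_BadP2T_of_leaves (hEisMod : Stmt_EisModT) (hAbs : Stmt_EisAbs2)
    (hTame : Stmt_EisAbsTame2) (hThick : Stmt_Thick) (hDrop : Stmt_HDropT)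
    (hRayMod : Stmt_RayModT) : Stmt_BadP2T :=
  stmt_BadP2T_of (stmt_SlopeT_of_leaves hEisMod hAbs hTame hThick hDrop)
    (stmt_RayT_of_leaves hRayMod)

/-- **Mazur's principle at `p`, module form, at the tame levels** (`p = 3`: even levels). -/
theorem removesPT_of (h : Stmt_BadP2T) (p : ℕ) (hp : p.Prime) (hp2 : p ≠ 2) (N : ℕ) [NeZero N]
    (hpN : p ∣ N) (hp2N : ¬ p ^ 2 ∣ N) (ht : Fermat.Agent.BAD.H91.TameAt (N / p) p)
    (A : ValuationSubring (AlgebraicClosure ℚ)) (hA : A.LiesOverPrime p) :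
    (jzModule N p).RemovesP N A := by
  obtain ⟨M, rfl⟩ : ∃ M, N = M * p := ⟨N / p, (Nat.div_mul_cancel hpN).symm⟩
  have hpM : ¬ p ∣ M := by
    rintro ⟨k, rfl⟩
    exact hp2N ⟨k, by ring⟩
  rw [Nat.mul_div_cancel M hp.pos] at ht
  exact removesP_of_badStructure (jzModule (M * p) p) (M * p) A (h p hp hp2 M hpM ht A hA)

end Fermat.Agent.BADP3
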