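/-
helper93, BAD_3: BAD_p at the TAME levels is DONE (`p` odd; `p = 3`: even levels), unconditional.
Plan: `NOTES/plan/L_S39_BAD3.md` (v2).

Leaves: MOD-T+ (copy of helper33's datum), K0-T (helper11), KUM (helper57), GOOD-ROOT (helper66),
OLD (helper75, helper35, helper78), NODE-VAL2 / EIS-ABS2 / EIS-ABS-TAME2 (helper97), THICK
(helper52; helper57), EIS-MOD-T (helper66), H-DROP2 (helper28 abstract part, helper93 modular
part, after helper74), RAY-MOD-T (helper57).

* `stmt_SlopeT : Stmt_SlopeT`, `stmt_BadP2T : Stmt_BadP2T`;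
* `removesPT` : Mazur's principle at `p` (module form) at the tame levels.
-/
import Fermat.Agent.BADP3.Wiring
import Fermat.Agent.BADP3.H97_EisAbs2
import Fermat.Agent.BADP3.H97_EisTame2
import Fermat.Agent.BADP3.H52_Thick
import Fermat.Agent.BADP3.H66_EisModT
import Fermat.Agent.BADP3.H93_HDropT
import Fermat.Agent.BADP3.H57_RayModT

set_option autoImplicit false
set_option synthInstance.maxHeartbeats 400000
set_option maxHeartbeats 1000000

noncomputable section

namespace Fermat.Agent.BADP3

open Fermat.Agent.S44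

/-- (d) SLOPE at the tame levels, unconditional. -/
theorem stmt_SlopeT : Stmt_SlopeT :=
  stmt_SlopeT_of_leaves Fermat.Agent.BADP3.H66.stmt_EisModT Fermat.Agent.BADP3.H97.stmt_EisAbs2
    Fermat.Agent.BADP3.H97.stmt_EisAbsTame2 Fermat.Agent.BADP3.H52.stmt_Thick
    Fermat.Agent.BADP3.H93.stmt_HDropT

/-- **BAD_p at the tame levels**, unconditional (`p = 3`: even levels). -/
theorem stmt_BadP2T : Stmt_BadP2T :=
  stmt_BadP2T_of stmt_SlopeT Fermat.Agent.BADP3.H57.stmt_RayT

/-- **Mazur's principle at `p`, module form, at the tame levels**, unconditional. -/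
theorem removesPT (p : ℕ) (hp : p.Prime) (hp2 : p ≠ 2) (N : ℕ) [NeZero N]
    (hpN : p ∣ N) (hp2N : ¬ p ^ 2 ∣ N) (ht : Fermat.Agent.BAD.H91.TameAt (N / p) p)
    (A : ValuationSubring (AlgebraicClosure ℚ)) (hA : A.LiesOverPrime p) :
    (jzModule N p).RemovesP N A :=
  removesPT_of stmt_BadP2T p hp hp2 N hpN hp2N ht A hA

end Fermat.Agent.BADP3
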