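import Fermat.Agent.BADP.H74_HDropAbs

/-!
# BAD_3 (S39 general form), leaf H-DROP2 (helper28), abstract part

The variant of helper74's `BADP.H74.hdrop_abs` (Hecke on slopes) in which the slope relation is
only known in the form

  `p ^ 2 ∣ p · ord_Q (red f) − A' · ord_Q U`   (off the cusps),

as it happens for `p = 3` (the orders of `U` at the supersingular points are divisible by `p`).

* `hdrop_abs2` : under the hypotheses of `hdrop_abs` with this relation, all slopes vanish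
  modulo `p`.
-/

set_option autoImplicit false
set_option linter.style.haveILetI false

noncomputable section

open AlgebraicCurve

namespace Fermat.Agent.BADP3.H28

open Fermat.Agent.RED.H17 Fermat.Agent.S43.Old.H35 Fermat.Agent.BADP.H74

variable {K L L' k F' F'' : Type*} [Field K] [Field L] [Field L'] [Algebra K L] [Algebra K L']
  [Field k] [Field F'] [Field F''] [Algebra k F'] [Algebra k F'']

/-- **H-DROP2, abstract form.**  Hecke on slopes with the slope relation modulo `p ^ 2`: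
`p ^ 2 ∣ p · ord_Q (red f) − A' · ord_Q U` off the cusps. -/
theorem hdrop_abs2
    (hconstL : ∀ g : L, g ≠ 0 → (∀ P : Place K L, P.ord g = 0) → ∃ c : K, g = algebraMap K L c)
    (α β : L →ₐ[K] L') (hα : α.toRingHom.IsIntegral) (hβ : β.toRingHom.IsIntegral)
    [HasPrincipalDivisors K L'] (hfin : FiniteAlong K α) (hNF : NormFormulaAlong K α hfin)
    (α' β' : F' →ₐ[k] F'') (hα' : α'.toRingHom.IsIntegral) (hβ' : β'.toRingHom.IsIntegral)
    [HasPrincipalDivisors k F''] (hfin' : FiniteAlong k α') (hNF' : NormFormulaAlong k α' hfin')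
    (V : ValuationSubring L) (red : ↥V →+* F')
    (hred0 : ∀ u : ↥V, red u = 0 ↔ ¬ IsUnit u)
    (hscale : ∀ f : L, f ≠ 0 → ∃ c : K, c ≠ 0 ∧
      ∃ h : algebraMap K L c * f ∈ V, red ⟨_, h⟩ ≠ 0)
    (hconst : ∀ (c : K) (h : algebraMap K L c ∈ V), ∃ c' : k,
      red ⟨_, h⟩ = algebraMap k F' c')
    (hnorm : ∀ f : ↥V, ∃ h : normAlong α (β (f : L)) ∈ V,
      red ⟨_, h⟩ = normAlong α' (β' (red f)))
    (p : ℕ) (hp : p.Prime) (t : ℤ) (htd : ¬ (p : ℤ) ∣ t - (finrankAlong k α' : ℤ))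
    (D : Divisor K L) (f : ↥V) (hf : red f ≠ 0)
    (hD : ∀ P : Place K L, (p : ℤ) * D P = P.ord (f : L))
    (heig : (Divisor.correspondence β α hβ hα D - t • D).IsPrincipal)
    (U : F') (hU : U ≠ 0) (A' : ℤ) (C : Set (Place k F'))
    (hnc : ∀ Q : Place k F', Q ∉ C →
      (p : ℤ) ^ 2 ∣ (p : ℤ) * Q.ord (red f) - A' * Q.ord U)
    (hc : ∀ Q ∈ C, (p : ℤ) ∣ Q.ord (red f))
    (hcusp : ∀ Q'' : Place k F'',
      Q''.restrictAlong α' hα' ∉ C → Q''.restrictAlong β' hβ' ∉ C)
    (hW : ∀ Q'' : Place k F'', Q''.restrictAlong α' hα' ∉ C →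
      Q''.ord (β' U) = Q''.ord (α' U)) :
    ∀ Q : Place k F', (p : ℤ) ∣ Q.ord (red f) := by
  intro Q
  by_cases hQ : Q ∈ C
  · exact hc Q hQ
  obtain ⟨hN0, h', hh', hrel⟩ := ord_norm_red_eq hconstL α β hα hβ hfin hNF α' β' hfin' V red
    hred0 hscale hconst hnorm p t D f hf hD heig
  set g : F' := red f with hg
  have hβg : β' g ≠ 0 := by
    intro h0
    exact hf (β'.toRingHom.injective (by simpa using h0))
  have hαU : α' U ≠ 0 := by
    intro h0
    exact hU (α'.toRingHom.injective (by simpa using h0))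
  -- the auxiliary function
  set H : F'' := (β' g) ^ p * (α' U) ^ (-A') with hH
  have hH0 : H ≠ 0 := mul_ne_zero (pow_ne_zero _ hβg) (zpow_ne_zero _ hαU)
  have hHord : ∀ w : Place k F'', w.restrictAlong α' hα' = Q → (p : ℤ) ^ 2 ∣ w.ord H := by
    intro w hw
    have hwC : w.restrictAlong α' hα' ∉ C := by rw [hw]; exact hQ
    have hwβ : w.restrictAlong β' hβ' ∉ C := hcusp w hwC
    have h1 := hnc _ hwβ
    have h2 : w.ord H = (p : ℤ) * w.ord (β' g) - A' * w.ord (β' U) := by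
      rw [hH, w.ord_mul (pow_ne_zero _ hβg) (zpow_ne_zero _ hαU), w.ord_zpow, ord_pow,
        hW w hwC]
      ring
    rw [h2, Place.ord_restrictAlong β' hβ' w g, Place.ord_restrictAlong β' hβ' w U]
    have h3 : (p : ℤ) * ((Place.ramificationIndexAlong β' w : ℤ) *
          (w.restrictAlong β' hβ').ord g)
        - A' * ((Place.ramificationIndexAlong β' w : ℤ) * (w.restrictAlong β' hβ').ord U)
        = (Place.ramificationIndexAlong β' w : ℤ) *
          ((p : ℤ) * (w.restrictAlong β' hβ').ord g - A' * (w.restrictAlong β' hβ').ord U) := by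
      ring
    rw [h3]
    exact Dvd.dvd.mul_left h1 _
  have h4 := dvd_ord_normAlong α' hα' hfin' hNF' ((p : ℤ) ^ 2) hH0 Q hHord
  have h5 : normAlong α' H
      = normAlong α' (β' g) ^ p * (U ^ finrankAlong k α') ^ (-A') := by
    rw [hH, normAlong_mul, normAlong_pow, normAlong_zpow α' hαU, normAlong_apply]
  have hUd : U ^ finrankAlong k α' ≠ 0 := pow_ne_zero _ hU
  rw [h5, Q.ord_mul (pow_ne_zero _ hN0) (zpow_ne_zero _ hUd), Q.ord_zpow, ord_pow, ord_pow,
    hrel Q] at h4
  have h6 := hnc Q hQ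
  -- arithmetic modulo `p ^ 2`
  have hpZ : Prime (p : ℤ) := Nat.prime_iff_prime_int.mp hp
  have hp0 : (p : ℤ) ≠ 0 := hpZ.ne_zero
  have h7 : (p : ℤ) ^ 2 ∣ (p : ℤ) * ((t - (finrankAlong k α' : ℤ)) * Q.ord g) := by
    have e : (p : ℤ) * ((t - (finrankAlong k α' : ℤ)) * Q.ord g)
        = ((p : ℤ) * (t * Q.ord g + (p : ℤ) * Q.ord h')
            + -A' * ((finrankAlong k α' : ℤ) * Q.ord U))
          - (finrankAlong k α' : ℤ) * ((p : ℤ) * Q.ord g - A' * Q.ord U)
          - (p : ℤ) ^ 2 * Q.ord h' := by ring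
    rw [e]
    exact dvd_sub (dvd_sub h4 (Dvd.dvd.mul_left h6 _)) (dvd_mul_right _ _)
  have h8 : (p : ℤ) ∣ (t - (finrankAlong k α' : ℤ)) * Q.ord g := by
    rw [pow_two] at h7
    exact (mul_dvd_mul_iff_left hp0).1 h7
  rcases hpZ.dvd_or_dvd h8 with h | h
  · exact absurd h htd
  · exact h

end Fermat.Agent.BADP3.H28
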