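import Fermat.Agent.S38.Complete.H49_Complete
import Fermat.Agent.S59.LL.H77_BridgeRes
import Fermat.Agent.S59.Datum.H57_ResEq
import Fermat.Agent.S58.H99_Odd
import Fermat.Agent.S58.H99_Gram
import Fermat.Agent.L.Pivot.H76_Wire2WDefs

/-!
# BAD_3 / S39, leaf UNR-OUT (helper45)

`unrOut`: if `E[p]` (`p` odd) is irreducible and residually modular of level `M`, then `E[p]` is
unramified at every prime `q ∤ M p`.

Proof: `ρ_g` over `k = ℤ̄ / 𝔪` from S29 (unramified outside `M p`); `E[p] ⊗ k` has the same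
Frobenius characteristic polynomials at almost all primes, hence the same characteristic
polynomials everywhere (Frobenius density); `ρ_g` is absolutely irreducible (Gram determinant of
`E[p]`, which is irreducible and odd); so `E[p] ⊗ k ≅ ρ_g` and `E[p]` is unramified at `q`.
-/

set_option autoImplicit false
set_option linter.style.haveILetI false

open Polynomial WeierstrassCurve

namespace Fermat.Agent.BADP3.H45

open Fermat.Agent.S58 Fermat.Agent.S58.H99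

/-- **UNR-OUT** as a statement. -/
def Stmt_UnrOut : Prop :=
  ∀ (p : ℕ), p.Prime → p ≠ 2 → ∀ (W : WeierstrassCurve ℤ), W.Δ ≠ 0 →
    W.ModRepIsIrreducible p → ∀ (M : ℕ), 0 < M → W.IsResiduallyModularOfLevel p M →
    ∀ (q : ℕ), q.Prime → q ≠ p → ¬ q ∣ M → Fermat.Agent.L.Pivot.H76.UnrW W p q

/-- `E[p]` is unramified at `q` as a residual representation, for `q ∤ M p`. -/
theorem torsRes_unramified (p : ℕ) (hp : p.Prime) (hp2 : p ≠ 2) (W : WeierstrassCurve ℤ)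
    (hΔ : W.Δ ≠ 0) (hirr : W.ModRepIsIrreducible p) (M : ℕ) (hM : 0 < M)
    (hmod : W.IsResiduallyModularOfLevel p M) (q : ℕ) (hq : q.Prime) (hqp : q ≠ p)
    (hqM : ¬ q ∣ M) :
    haveI : Fact p.Prime := ⟨hp⟩
    (torsRes W hΔ p).IsUnramifiedAt q := by
  have : Fact p.Prime := ⟨hp⟩
  obtain ⟨g, 𝔪, hg, h𝔪, hp𝔪, hcong⟩ := hmod
  have := h𝔪
  letI : Field (integralClosure ℤ ℂ ⧸ 𝔪) := Ideal.Quotient.field 𝔪
  have hpk : ((p : ℕ) : integralClosure ℤ ℂ ⧸ 𝔪) = 0 := by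
    have : Ideal.Quotient.mk 𝔪 (p : integralClosure ℤ ℂ) = 0 :=
      Ideal.Quotient.eq_zero_iff_mem.2 hp𝔪
    simpa using this
  have : CharP (integralClosure ℤ ℂ ⧸ 𝔪) p := (CharP.charP_iff_prime_eq_zero hp).2 hpk
  obtain ⟨k, hk⟩ : ∃ k : Type, k = (integralClosure ℤ ℂ ⧸ 𝔪) := ⟨_, rfl⟩
  subst hk
  set φ : integralClosure ℤ ℂ →+* (integralClosure ℤ ℂ ⧸ 𝔪) := Ideal.Quotient.mk 𝔪 with hφ
  letI : Algebra (ZMod p) (integralClosure ℤ ℂ ⧸ 𝔪) := ZMod.algebra _ p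
  have key : ∀ (a : integralClosure ℤ ℂ) (n : ℤ),
      a - ((n : ℤ) : integralClosure ℤ ℂ) ∈ 𝔪 →
        φ a = ((n : ℤ) : integralClosure ℤ ℂ ⧸ 𝔪) := by
    intro a n h
    rw [← Ideal.Quotient.eq_zero_iff_mem, map_sub, map_intCast, sub_eq_zero] at h
    exact h
  obtain ⟨ρg, hatt, hunr⟩ := Fermat.Agent.S29.result hg hp φ
  have hℓk : ∀ ℓ' : ℕ, ℓ'.Prime → ℓ' ≠ p → ((ℓ' : ℕ) : integralClosure ℤ ℂ ⧸ 𝔪) ≠ 0 := by
    intro ℓ' hℓ' hne h0
    have h1 : p ∣ ℓ' := (CharP.cast_eq_zero_iff (integralClosure ℤ ℂ ⧸ 𝔪) p ℓ').1 h0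
    exact hne ((Nat.prime_dvd_prime_iff_eq hp hℓ').1 h1).symm
  -- the two representations over `k`
  set ρ₁ : ResidualGaloisRep (integralClosure ℤ ℂ ⧸ 𝔪) :=
    (torsRes W hΔ p).baseChangeAlong (algebraMap (ZMod p) (integralClosure ℤ ℂ ⧸ 𝔪)) with hρ₁
  have hch₁ : ∀ σ : GQ, LinearMap.charpoly (ρ₁.ρ σ) =
      (LinearMap.charpoly ((torsRes W hΔ p).ρ σ)).map
        (algebraMap (ZMod p) (integralClosure ℤ ℂ ⧸ 𝔪)) := fun σ =>
    Fermat.Agent.S59.Asm.charpoly_bcAlong_resid _ (torsRes W hΔ p) σ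
  have hfrob : ∀ ℓ' : ℕ, ℓ'.Prime → ℓ' ∉ badSet W p ∪ M.primeFactors →
      ∀ A : ValuationSubring (AlgebraicClosure ℚ),
      A.LiesOverPrime ℓ' → ∀ σ : GQ, A.IsFrobeniusAt σ ℓ' →
        LinearMap.charpoly (ρg.ρ σ) = LinearMap.charpoly (ρ₁.ρ σ) := by
    intro ℓ' hℓ' hℓT A hA σ hσ
    have hbad : ℓ' ∉ badSet W p := fun h => hℓT (Finset.mem_union_left _ h)
    have hM' : ¬ ℓ' ∣ M := fun h => hℓT (Finset.mem_union_right _
      (Nat.mem_primeFactors.2 ⟨hℓ', h, hM.ne'⟩))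
    obtain ⟨hne, hgood'⟩ := not_mem_badSet hΔ hℓ' hbad
    obtain ⟨a, ha, hch⟩ := hatt ℓ' hℓ' hM' (hℓk ℓ' hℓ' hne) A hA σ hσ
    obtain ⟨a', ha', hφ'⟩ := hcong ℓ' hℓ' hgood' hM' hne
    have haa : a = a' := Subtype.ext (ha.trans ha'.symm)
    have h3 : LinearMap.charpoly ((torsRes W hΔ p).ρ σ) =
        X ^ 2 - C (((W.apOfModel ℓ' : ℤ) : ZMod p)) * X + C ((ℓ' : ZMod p)) :=
      torsAdic_charpoly W hΔ p ℓ' hℓ' hne hgood' A hA σ hσ
    rw [hch, hch₁, h3, haa, key a' _ hφ']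
    simp [Polynomial.map_sub, Polynomial.map_add, Polynomial.map_mul, Polynomial.map_pow]
  have hcp : ∀ σ : GQ, LinearMap.charpoly (ρg.ρ σ) = LinearMap.charpoly (ρ₁.ρ σ) :=
    Fermat.Agent.S59.Datum.H57.charpoly_eq_of_frob ρg ρ₁ _ hfrob
  -- traces
  have htr : ∀ σ : GQ,
      LinearMap.trace (integralClosure ℤ ℂ ⧸ 𝔪) ρg.V (ρg.ρ σ) =
        algebraMap (ZMod p) (integralClosure ℤ ℂ ⧸ 𝔪)
          (LinearMap.trace (ZMod p) (TorsW W p) (torsRho W p σ)) := by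
    intro σ
    obtain ⟨h1, -⟩ := Fermat.Agent.R.trace_det_eq_of_charpoly_eq ρg.finrank_eq
      ρ₁.finrank_eq _ _ (hcp σ)
    refine h1.trans ?_
    exact LinearMap.trace_baseChange ((torsRes W hΔ p).ρ σ) (integralClosure ℤ ℂ ⧸ 𝔪)
  -- absolute irreducibility
  have habs : ρg.IsAbsolutelyIrreducible := by
    obtain ⟨γ, hγ⟩ := exists_gram_ne_zero_of_span (finrank_torsW W hΔ p) (torsRho W p)
      (span_torsRho W hΔ p hp2 hirr)
    apply isAbsolutelyIrreducible_of_gram ρg γ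
    have hmap : (Matrix.of fun a b =>
          LinearMap.trace (integralClosure ℤ ℂ ⧸ 𝔪) ρg.V (ρg.ρ (γ a * γ b))) =
        (Matrix.of fun a b =>
          LinearMap.trace (ZMod p) (TorsW W p) (torsRho W p (γ a * γ b))).map
            (algebraMap (ZMod p) (integralClosure ℤ ℂ ⧸ 𝔪)) := by
      ext a b
      simp only [Matrix.of_apply, Matrix.map_apply]
      exact htr (γ a * γ b)
    rw [hmap, ← RingHom.mapMatrix_apply, ← RingHom.map_det]
    exact fun h0 => hγ ((map_eq_zero _).mp h0)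
  have hE : ρ₁.IsEquiv ρg :=
    Fermat.Agent.S59.Datum.H57.isEquiv_of_charpoly_eq ρ₁ ρg habs (fun σ => (hcp σ).symm)
  have hqMp : ¬ q ∣ M * p := by
    intro h
    rcases (Nat.Prime.dvd_mul hq).1 h with h1 | h1
    · exact hqM h1
    · exact hqp ((Nat.prime_dvd_prime_iff_eq hq hp).1 h1)
  exact (Fermat.Agent.S59.LL.H77.unramified_iff_of_isEquiv _ (torsRes W hΔ p) ρg hE q).1
    (hunr q hq hqMp)

/-- **UNR-OUT.** -/
theorem stmt_UnrOut : Stmt_UnrOut := by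
  intro p hp hp2 W hΔ hirr M hM hmod q hq hqp hqM A hA σ hσ v
  have : Fact p.Prime := ⟨hp⟩
  have h := torsRes_unramified p hp hp2 W hΔ hirr M hM hmod q hq hqp hqM A hA σ hσ
  have h2 := congrArg (fun F : Module.End (ZMod p) (TorsW W p) => F v) h
  exact h2

end Fermat.Agent.BADP3.H45
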