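import Fermat.Agent.BADP.H15_RayMod
import Fermat.Agent.BADP.H57_Kum
attribute [local instance 10000] SubalgebraClass.toAlgebra
attribute [local instance 10000] HahnSeries.powerSeriesAlgebra

/-!
# BAD_3 (S39 at `p = 3`, for S59-LL), leaf RAY-MOD at a datum (helper57)

`rayMod_at` : the statement (RAY-K3x) at `(p, M, A)` for EVERY odd prime `p`, from a modular datum
`S` (`IsModDatum A p M a b hab hp S`) with `𝓘`-fixed parts (`IsK0Lift S (inertiaAuts A (M p))`).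
No condition `5 ≤ p`: the proof of `BADP.H15.stmt_RayMod` uses `5 ≤ p` only to get the datum
and `p ≠ 2`.  (KUM-FIX), (KUM-W) are plugged in (`BADP.H57.stmt_KumFix`, `stmt_KumW`).

`rayMod_at_of` : the same with (KUM-FIX), (KUM-W) as hypotheses.
-/

set_option autoImplicit false
set_option linter.style.haveILetI false
set_option linter.unusedSectionVars false
set_option synthInstance.maxHeartbeats 400000
set_option maxHeartbeats 1000000

noncomputable section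

open AlgebraicCurve ModularCurve

namespace Fermat.Agent.BADP3.H57

open Fermat.Agent.BAD Fermat.Agent.S44 Fermat.Agent.S43.BadQ Fermat.Agent.S28.H73
  Fermat.Agent.RED.H73 Fermat.Agent.BADP.H97 Fermat.Agent.S24 Fermat.Agent.BADP
  Fermat.Agent.BADP.H15

/-- **(RAY-MOD) at a datum**, every odd prime `p`. -/
theorem rayMod_at_of (hKumFix : Stmt_KumFix) (hKumW : Stmt_KumW)
    (p : ℕ) (hp2 : p ≠ 2) (M : ℕ) (a b : ℤ) (hab : a * p + b * M = 1) (hp : p.Prime)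
    [NeZero (M * p)] (A : ValuationSubring (AlgebraicClosure ℚ)) (hA : A.LiesOverPrime p)
    (S : SSD (AlgebraicClosure ℚ) ↥(FNbar (M * p)) (kV A) (RedF A (M * p)) (RedF A (M * p)))
    (hS : IsModDatum A p M a b hab hp S) (hK0S : IsK0Lift S (inertiaAuts A (M * p)))
    (x : (jzModule (M * p) p).J) (u : ℤ) (ω : AlgebraicClosure ℚ)
    (hx : InK1 A (M * p) p (jzModule.pt (M * p) p x))
    (hwx : InK1 A (M * p) p (wS p M a b hab hp • jzModule.pt (M * p) p x))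
    (hu : ¬ (p : ℤ) ∣ u) (hgood : IsGoodRoot p A u ω)
    (hfix : ∀ σ ∈ A.inertiaSubgroupIn ℚ, σ ω = ω → (jzModule (M * p) p).gal σ x = x) :
    x = 0 := by
  have h2le : 2 ≤ p := hp.two_le
  haveI : IsAlgClosed (kV A) := isAlgClosed_kV A
  have hchar : CharP (kV A) p := Fermat.Agent.BAD.H82.charP_kV A hp hA
  have hpK : (p : AlgebraicClosure ℚ) ≠ 0 := Nat.cast_ne_zero.2 hp.ne_zero
  obtain ⟨g, g₁, c, c₁, hg, hg₁, hnum⟩ := hS.genus
  obtain ⟨D, f, f', h₀, c₀, hf, hf', hxD, hdiv, hrf, hrf', hff'⟩ :=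
    hKumW p M a b hab hp p A (jzModule.pt (M * p) p x) hx hwx
  -- the Kummer function
  have hf₁ : f ∈ S.c₁.V := (hS.mem₁ f).2 hf
  have hrd₁ : S.c₁.rd f = 1 := by
    rw [S.c₁.rd_of_mem hf₁, hS.red₁ ⟨f, hf⟩ hf₁, hrf]
  have hf0 : f ≠ 0 := by
    rintro rfl
    rw [S.c₁.rd_zero] at hrd₁
    exact zero_ne_one hrd₁
  have hf'₂ : f' ∈ S.c₂.V := (hS.mem₂ f').2 hf'
  have hrd₂ : S.c₂.rd f' = 1 := by
    rw [S.c₂.rd_of_mem hf'₂, hS.red₂ f' hf'₂ hf', hrf']
  have hdivp : ∀ P : Place (AlgebraicClosure ℚ) ↥(FNbar (M * p)), (p : ℤ) ∣ P.ord f :=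
    fun P => ⟨_, (hdiv P).symm⟩
  have h𝓘 : ∀ τ ∈ inertiaAuts A (M * p), S.IsInertial τ := by
    rintro τ ⟨σ, hσ, rfl⟩
    exact hS.inertial σ hσ
  -- it is enough to show that `f` is a constant times a `p`-th power
  suffices hmain : ∃ (e : AlgebraicClosure ℚ) (h : ↥(FNbar (M * p))),
      f = algebraMap (AlgebraicClosure ℚ) ↥(FNbar (M * p)) e * h ^ p by
    obtain ⟨e, h, hfe⟩ := hmain
    have h0 := mk_eq_zero_of_pow hp.ne_zero D hf0 hdiv hfe
    rw [← hxD] at h0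
    apply jzModule.pt_injective (M * p) p
    rw [h0]
    rfl
  -- the Kummer functions of the conjugates
  have hcls : ∀ σ ∈ A.inertiaSubgroupIn ℚ, σ ω = ω →
      ∃ (e : AlgebraicClosure ℚ) (T : ↥(FNbar (M * p))),
        galF (M * p) σ • f = algebraMap (AlgebraicClosure ℚ) ↥(FNbar (M * p)) e * f * T ^ p := by
    intro σ hσ hσω
    refine hKumFix (M * p) p (jzModule.pt (M * p) p x) D f hf0 hxD hdiv σ ?_
    rw [← jzModule.pt_gal, hfix σ hσ hσω]
  obtain ⟨hω, τ₀, hτ₀, hτ₀ω, ζ, hζp, hτ₀ζ⟩ := hgood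
  have hζ1 : ζ ≠ 1 := by
    rintro rfl
    exact hτ₀ζ (map_one τ₀)
  have hζ : IsPrimitiveRoot ζ p := isPrimitiveRoot_of_ne_one hp hζp hζ1
  have hu0 : (u : AlgebraicClosure ℚ) ≠ 0 := by
    intro h0
    have : u = 0 := by exact_mod_cast h0
    exact hu (this ▸ dvd_zero _)
  have hω0 : ω ≠ 0 := by
    rintro rfl
    rw [zero_pow hp.ne_zero] at hω
    exact hu0 hω.symm
  rcases karith_dichotomy hp hp2 hA u hu hζ with ⟨z, hzK, hz⟩ | ⟨t, ω', σ', htK, ht, htω, hσ', hKD⟩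
  · -- the tame case: the good root lies in `K₀`
    have hz0 : z ≠ 0 := by
      rintro rfl
      rw [zero_pow hp.ne_zero] at hz
      exact hu0 hz.symm
    have hξ : (ω / z) ^ p = 1 := by
      rw [div_pow, hω, hz, div_self hu0]
    have hτξ : τ₀ (ω / z) = ω / z := by
      rw [map_div₀, hτ₀ω, mem_K0.1 hzK τ₀ hτ₀]
    have hξ1 : ω / z = 1 := by
      by_contra hne
      have hprim := isPrimitiveRoot_of_ne_one hp hξ hne
      haveI : NeZero p := ⟨hp.ne_zero⟩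
      obtain ⟨i, -, hi⟩ := hprim.eq_pow_of_pow_eq_one hζp
      apply hτ₀ζ
      rw [← hi, map_pow, hτξ]
    have hωz : ω = z := by
      field_simp at hξ1
      exact hξ1
    have hωK : ω ∈ K0 A := hωz ▸ hzK
    refine Fermat.Agent.BADP.H51.stmt_RayAbsTame (AlgebraicClosure ℚ) ↥(FNbar (M * p)) (kV A)
      (RedF A (M * p)) (RedF A (M * p)) S hS.ff hS.ff₁ hS.ff₁ g g₁ g₁ c c₁ c₁ hg hg₁ hg₁ hnum
      p hp hp2 hchar hpK (inertiaAuts A (M * p)) h𝓘 hK0S ?_ f hf₁ hrd₁ hdivp f' h₀ c₀ hf'₂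
      hrd₂ hff' ?_
    · -- the linear regime
      intro a₀ ha₀ haCM
      have haK : a₀ ∈ K0 A := mem_K0.2 fun σ hσ => ha₀ (galF (M * p) σ) ⟨σ, hσ, rfl⟩
      have hav : A.valuation a₀ < 1 := val_lt_one_of_isCM hS haCM
      have hav' := val_le_p_of_lt_one hp hA haK hav
      have hvp0 : A.valuation (p : AlgebraicClosure ℚ) ≠ 0 := val_p_ne hp
      refine ⟨a₀ ^ (p - 1) / (p : AlgebraicClosure ℚ), ?_, ?_⟩
      · refine rd_const_eq_zero (modDatum_const₁ hS) ?_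
        rw [map_div₀, map_pow]
        have h2 : p - 1 = (p - 2) + 1 := by omega
        rw [h2, pow_succ]
        have h3 : A.valuation a₀ ^ (p - 2) < 1 :=
          pow_lt_one₀ zero_le hav (by omega)
        calc A.valuation a₀ ^ (p - 2) * A.valuation a₀ / A.valuation (p : AlgebraicClosure ℚ)
            ≤ A.valuation a₀ ^ (p - 2) * A.valuation (p : AlgebraicClosure ℚ)
                / A.valuation (p : AlgebraicClosure ℚ) := by
              gcongr
              exact zero_le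
          _ = A.valuation a₀ ^ (p - 2) := by
              rw [mul_div_assoc, div_self hvp0, mul_one]
          _ < 1 := h3
      · have h2 : p = (p - 1) + 1 := by omega
        conv_lhs => rw [h2, pow_succ]
        field_simp
    · rintro τ ⟨σ, hσ, rfl⟩
      exact hcls σ hσ (mem_K0.1 hωK σ hσ)
  · -- the wild case
    have hp1 : p - 1 ≠ 0 := Nat.sub_ne_zero_of_lt hp.one_lt
    have ht0 : t ≠ 0 := by
      rintro rfl
      rw [zero_pow hp1] at ht
      exact zero_ne_one ht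
    obtain ⟨u1, hu1K, hu1v, hω'⟩ := hKD.pow
    have hω'0 : ω' ≠ 0 := by
      rintro rfl
      rw [mul_zero, zero_pow hp.ne_zero] at htω
      exact hu0 htω.symm
    -- the root `ω₁ = ω / t` of `1 + p u₁`
    set ω₁ : AlgebraicClosure ℚ := ω / t with hω₁def
    have hω₁p : ω₁ ^ p = ω' ^ p := by
      rw [hω₁def, div_pow, hω, ← htω, mul_pow]
      field_simp
    have hω₁ : ω₁ ^ p = 1 + (p : AlgebraicClosure ℚ) * u1 := by rw [hω₁p, hω']
    have hξ : (ω₁ / ω') ^ p = 1 := by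
      rw [div_pow, hω₁p, div_self (pow_ne_zero _ hω'0)]
    haveI : NeZero p := ⟨hp.ne_zero⟩
    obtain ⟨i, -, hi⟩ := hζ.eq_pow_of_pow_eq_one hξ
    have hσ'ω₁ : σ' ω₁ = ζ * ω₁ := by
      have e1 : ω₁ = ζ ^ i * ω' := by
        rw [hi]
        field_simp
      have hσζ : σ' ζ = ζ := hKD.σζ
      have hσω' : σ' ω' = ζ * ω' := hKD.σω
      rw [e1, map_mul, map_pow, hσζ, hσω']
      ring
    have hKD₁ : KData A.valuation (K0 A) p ζ ω₁
        (σ' : AlgebraicClosure ℚ →+* AlgebraicClosure ℚ) :=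
      kdata_qbar hp hA hζ hu1K hu1v hω₁ hσ' hKD.σζ hσ'ω₁
    -- the stabilisers of `ω` and `ω₁` coincide
    have hstab : ∀ σ ∈ A.inertiaSubgroupIn ℚ, σ ω₁ = ω₁ → σ ω = ω := by
      intro σ hσ h1
      have e1 : ω = t * ω₁ := by
        rw [hω₁def]
        field_simp
      rw [e1, map_mul, mem_K0.1 htK σ hσ, h1]
    -- the transferred data
    have hK₁ := kdata_fn (T := S.c₁) (modDatum_const₁ hS) hA hKD₁ hσ' (galF (M * p) σ')
      (fun _ => rfl) (hS.inertial σ' hσ').mem₁ (fixF (M * p) (inertiaSet A))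
      (fun c hc => const_mem_F0 (M * p) A hc) (fun g hg => galF_F0 (M * p) A hσ' hg)
      (stmt_A1 (M * p) A S.c₁ (fun f hf => (hS.mem₁ f).2 hf))
    have hK₂ := kdata_fn (T := S.c₂) (modDatum_const₂ hS) hA hKD₁ hσ' (galF (M * p) σ')
      (fun _ => rfl) (hS.inertial σ' hσ').mem₂ (fixF (M * p) (inertiaSet A))
      (fun c hc => const_mem_F0 (M * p) A hc) (fun g hg => galF_F0 (M * p) A hσ' hg)
      (stmt_A1_two A p M a b hab hp S.c₂ (fun f hf => (hS.mem₂ f).2 hf))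
    have hadj : ∀ y : ↥(FNbar (M * p)),
        (∀ τ ∈ stabAuts A (M * p) {ω₁}, τ • y = y) →
        y ∈ IntermediateField.adjoin (fixF (M * p) (inertiaSet A))
          ({algebraMap (AlgebraicClosure ℚ) ↥(FNbar (M * p)) ω₁} : Set ↥(FNbar (M * p))) := by
      intro y hy
      refine mem_adjoin_singleton_of_fixed (M * p) A hp hA ω₁ fun σ hσ hσω => ?_
      exact hy (galF (M * p) σ) ⟨σ, hσ, fun t ht => by rw [Set.mem_singleton_iff.1 ht, hσω], rfl⟩
    refine Fermat.Agent.BADP.H51.stmt_RayAbs (AlgebraicClosure ℚ) ↥(FNbar (M * p)) (kV A)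
      (RedF A (M * p)) (RedF A (M * p)) S hS.ff hS.ff₁ hS.ff₁ g g₁ g₁ c c₁ c₁ hg hg₁ hg₁ hnum
      p hp hp2 hchar hpK (inertiaAuts A (M * p)) (stabAuts A (M * p) {ω₁}) h𝓘 ?_ hK0S
      (ζ - 1) (ω₁ - 1) (keyP_pi_isCM (T := S.c₁) (modDatum_const₁ hS) hKD₁ hp2)
      (sub_ne_zero.2 hζ1) (keyP_pi (T := S.c₁) (modDatum_const₁ hS) hKD₁ hp2)
      (keyP_varpi_isCM (T := S.c₁) (modDatum_const₁ hS) hKD₁)
      (keyP_varpi (T := S.c₁) (modDatum_const₁ hS) hKD₁)
      (galF (M * p) σ') ⟨σ', hσ', rfl⟩ ?_ ?_ ?_ f hf₁ hrd₁ hdivp f' h₀ c₀ hf'₂ hrd₂ hff' ?_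
    · rintro τ ⟨σ, hσ, -, rfl⟩
      exact ⟨σ, hσ, rfl⟩
    · intro y hy hyV
      exact stmt_A2_k3 hK₁ (hadj y hy) hyV
    · intro y hy hyV
      exact stmt_A2_k3 hK₂ (hadj y hy) hyV
    · intro a₀ ha₀ haCM
      have haA : a₀ ∈ A.nonunits := A.mem_nonunits_iff.2 (val_lt_one_of_isCM hS haCM)
      have ha' : ∀ τ ∈ A.inertiaSubgroupIn ℚ, τ ω₁ = ω₁ → τ a₀ = a₀ := fun τ hτ hτω =>
        ha₀ (galF (M * p) τ)
          ⟨τ, hτ, fun t ht => by rw [Set.mem_singleton_iff.1 ht, hτω], rfl⟩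
      have h3 := keyP_A3 (T := S.c₁) (modDatum_const₁ hS) hA hKD₁ haA ha'
      rw [mul_one] at h3
      exact h3
    · rintro τ ⟨σ, hσ, hσω, rfl⟩
      exact hcls σ hσ (hstab σ hσ (hσω ω₁ rfl))

/-- **(RAY-MOD) at a datum**, every odd prime `p`, unconditional in (KUM). -/
theorem rayMod_at
    (p : ℕ) (hp2 : p ≠ 2) (M : ℕ) (a b : ℤ) (hab : a * p + b * M = 1) (hp : p.Prime)
    [NeZero (M * p)] (A : ValuationSubring (AlgebraicClosure ℚ)) (hA : A.LiesOverPrime p)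
    (S : SSD (AlgebraicClosure ℚ) ↥(FNbar (M * p)) (kV A) (RedF A (M * p)) (RedF A (M * p)))
    (hS : IsModDatum A p M a b hab hp S) (hK0S : IsK0Lift S (inertiaAuts A (M * p)))
    (x : (jzModule (M * p) p).J) (u : ℤ) (ω : AlgebraicClosure ℚ)
    (hx : InK1 A (M * p) p (jzModule.pt (M * p) p x))
    (hwx : InK1 A (M * p) p (wS p M a b hab hp • jzModule.pt (M * p) p x))
    (hu : ¬ (p : ℤ) ∣ u) (hgood : IsGoodRoot p A u ω)
    (hfix : ∀ σ ∈ A.inertiaSubgroupIn ℚ, σ ω = ω → (jzModule (M * p) p).gal σ x = x) :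
    x = 0 :=
  rayMod_at_of Fermat.Agent.BADP.H57.stmt_KumFix Fermat.Agent.BADP.H57.stmt_KumW
    p hp2 M a b hab hp A hA S hS hK0S x u ω hx hwx hu hgood hfix

end Fermat.Agent.BADP3.H57
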