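import Fermat.Agent.BADP3.Defs
import Fermat.Agent.BADP.H21_Coord
import Fermat.Agent.BAD.H30_UnitGaussSS
import Fermat.Agent.S38.P3.H57_NEFinal
attribute [local instance 10000] SubalgebraClass.toAlgebra
attribute [local instance 10000] HahnSeries.powerSeriesAlgebra

/-!
# BAD_3, leaf THICK in the corrected form (helper57)

`BADP3.Stmt_Thick` as stated in `BADP3/Defs.lean` quantifies over ALL places `Q` and is false at
the cusps for `p = 3` (`rd U = j~ ^ 2`, `ord_∞ (rd U) = -2`, `e = -6`).  The form which is true,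
and which is what the abstract statements `Stmt_EisAbs2`, `Stmt_EisAbsTame2` use at the nodes:

`Stmt_ThickPos` : if `0 < ord_Q (rd U)` and `e · ord_Q (rd U) = 12` then `p ∤ e`
(`p` odd, tame level: `5 ≤ p`, or `p = 3` and `2 ∣ M`).

Proof.  `p ≥ 5`: `e ∣ 12`.  `p = 3`, `2 ∣ M`: `rd U = j~ ^ 2` (`BAD.H30.gaussRes_unitF_small`),
so `Q` is a zero of `j~`; by NE (`S38.P3.H57.stmt_NE` with `(q, M, r) = (3, M, 2)`, transported
by `κ`) `3 ∣ ord_Q (j~)`, hence `e · ord_Q (j~) = 6` forces `3 ∤ e`.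
-/

set_option autoImplicit false
set_option linter.style.haveILetI false
set_option linter.unusedSectionVars false
set_option synthInstance.maxHeartbeats 400000
set_option maxHeartbeats 1000000

noncomputable section

open HahnSeries IntermediateField AlgebraicCurve ModularCurve
open Fermat.Agent.S28.H73 Fermat.Agent.RED.H73 Fermat.Agent.RED Fermat.Agent.S24
open Fermat.Agent.BAD.H88

namespace Fermat.Agent.BADP3.H57

open Fermat.Agent.BAD Fermat.Agent.BAD.H91 Fermat.Agent.BADP Fermat.Agent.BADP.H21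
  Fermat.Agent.BADP3

/-- **(THICK), corrected form**: at a place `Q` where the reduction of the modular unit
vanishes, `e · ord_Q (rd U) = 12` implies `p ∤ e`. -/
def Stmt_ThickPos : Prop :=
  ∀ (p : ℕ) [NeZero p], p.Prime → p ≠ 2 → ∀ (M : ℕ), ¬ p ∣ M →
    Fermat.Agent.BAD.H91.TameAt M p → ∀ [NeZero (M * p)],
    ∀ A : ValuationSubring (AlgebraicClosure ℚ), A.LiesOverPrime p →
    ∀ (Q : Place (kV A) (RedF A (M * p))) (e : ℤ),
      0 < Q.ord (unitRed A (M * p) p (Dvd.intro_left M rfl)) →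
      e * Q.ord (unitRed A (M * p) p (Dvd.intro_left M rfl)) = 12 → ¬ (p : ℤ) ∣ e

/-- `p = 3`: the reduction of the modular unit is `j~ ^ 2`. -/
theorem unitRed_three (M : ℕ) [NeZero (M * 3)] (A : ValuationSubring (AlgebraicClosure ℚ))
    (hA : A.LiesOverPrime 3) :
    unitRed A (M * 3) 3 (Dvd.intro_left M rfl) = (jRed A (M * 3)) ^ 2 := by
  haveI : Fact (Nat.Prime 3) := ⟨Nat.prime_three⟩
  apply Subtype.ext
  have h1 := Fermat.Agent.BAD.H30.gaussRes_unitF_small A (M * 3) 3 hA (Dvd.intro_left M rfl)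
    (Or.inr rfl)
  have h2 : ((jRed A (M * 3) : RedF A (M * 3)) : LaurentSeries (kV A)) = jqModC (kV A) :=
    red_jF A (M * 3)
  rw [show (((jRed A (M * 3)) ^ 2 : RedF A (M * 3)) : LaurentSeries (kV A))
    = ((jRed A (M * 3) : RedF A (M * 3)) : LaurentSeries (kV A)) ^ 2 from rfl, h2]
  exact h1

theorem thick_arith {e o : ℤ} (ho : (3 : ℤ) ∣ o) (he : e * (2 * o) = 12) : ¬ (3 : ℤ) ∣ e := by
  rintro ⟨m, rfl⟩
  obtain ⟨k, rfl⟩ := ho
  have h : 18 * (m * k) = 12 := by rw [← he]; ring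
  omega

/-- **(THICK), corrected form.** -/
theorem stmt_ThickPos : Stmt_ThickPos := by
  intro p _ hp hp2 M hpM ht _ A hA Q e hpos he hdvd
  rcases ht with h5 | ⟨h3, h2M⟩ | ⟨h2, -⟩
  · -- `p ≥ 5`
    have h12 : (p : ℤ) ∣ 12 := he ▸ Dvd.dvd.mul_right hdvd _
    have h12' : p ∣ 12 := by exact_mod_cast h12
    have hle : p ≤ 12 := Nat.le_of_dvd (by norm_num) h12'
    interval_cases p <;> first
      | (exfalso; revert h12'; decide)
      | (exfalso; revert hp; decide)
  · subst h3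
    haveI : NeZero M := ⟨fun h0 => NeZero.ne (M * 3) (by rw [h0, zero_mul])⟩
    haveI : IsAlgClosed (kV A) := isAlgClosed_kV A
    have hcop : IsCoprime ((3 : ℕ) : ℤ) (M : ℤ) :=
      Nat.isCoprime_iff_coprime.2 ((Nat.Prime.coprime_iff_not_dvd hp).2 hpM)
    obtain ⟨a, b, hab⟩ := hcop
    have hU := unitRed_three M A hA
    rw [hU] at hpos he
    have hj0 : jRed A (M * 3) ≠ 0 := by
      intro h0
      rw [h0] at hpos
      simp at hpos
    rw [Fermat.Agent.RED.H51.ord_pow] at hpos he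
    push_cast at hpos he
    have hjpos : 0 < Q.ord (jRed A (M * 3)) := by linarith
    have e1 := kappa_ord_jRed A 3 M a b hab hp hA Q
    have h3 := Fermat.Agent.S38.P3.H57.stmt_NE 3 M 2 hp hpM Nat.prime_two (by norm_num) h2M A hA
      (kappa A 3 M a b hab hp hA Q) (by rw [e1]; exact hjpos)
    rw [e1] at h3
    exact thick_arith h3 he hdvd
  · exact hp2 h2

end Fermat.Agent.BADP3.H57
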